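import Fermat.Agent.S55.Inv.GO4.Defs
import Fermat.Agent.S55.Inv.SpecK
import Fermat.Agent.S55.K.AR.Spec

/-!
# S55 / `InvSpec` / GO4: the DICTIONARY `K.AR.CokerTower → Inv.CokerESpec`, FROZEN INTERFACE
(sub-architect helper3; blueprint with proofs: `coord/S55-INV-GO4.md`)

    K.AR.CokerTower S p  ──(GO4-SHAP)──▶  FLCokerSpec p S ─┐
                                                            ├─(GO4-ASM, helper3)─▶ Inv.CokerESpec p S
    K.AR.DecUnbounded S p ──(GO4-LD)──▶  LocDescSpec p S  ─┘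
                                                  (then `Inv.H99.globCoker_of_cokerE` ⇒ INV-COK)

* `FLCokerSpec p S` (finite level, INDUCED form; finite groups and Mathlib `groupCohomology` only):
  for levels `K₀ ≤ L` and two families `t, t'` of `p`-torsion classes in
  `H²(Dec_q(L), (Gal(K₀/ℚ) →₀ L_qˣ))`, `q ∈ S`, there are `(a, b) ≢ (0, 0) mod p`, `L' ≥ L` and a
  `p`-torsion class `e ∈ H²(Gal(L'/ℚ), (Gal(K₀/ℚ) →₀ E_S(L')))` whose localisation at every `q`
  is the inflation of `a t_q + b t'_q`.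
* `LocDescSpec p S` (local descent to the `S`-tower): every level-constant 2-cocycle of `G_q` with
  values in `Ind_{K₀.U} ℚ̄_qˣ` whose class is killed by `p` is cohomologous to `locM τ` for a
  2-cocycle `τ` of some `Dec_q(L)`, `L ≥ K₀` an `S`-LEVEL, with values in `(Gal(K₀/ℚ) →₀ L_qˣ)`,
  of class killed by `p`.  (The local level system consists of ALL number fields; the point is
  that the `p`-torsion of `Br` of a local field is split by the `S`-ramified extensions, since
  `p ∈ S`: their local degrees have unbounded `p`-part.)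

Leaves (producers prove `theorem … : XxxLeaf p S` in `Fermat/Agent/S55/Inv/GO4/<Leaf>H<seat>.lean`,
namespace `Fermat.Agent.S55.Inv.GO4.H<seat>`):
  `ShapLeaf`   (GO4-SHAP)  finite Shapiro (`T.All.shapiroRecognition`) + functoriality;
  `LocDescLeaf` (GO4-LD)   KC layer (`KC.IsWCF` for `indR W ℚ̄_qˣ`, `QInf`) + orbit decomposition.
-/

set_option autoImplicit false

noncomputable section

namespace Fermat.Agent.S55.Inv.GO4

open Fermat.Agent.S55 Fermat.Agent.S55.Tow Fermat.Agent.S55.E1.Lim groupCohomology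
open Fermat.Agent.S55.PT

variable (p : ℕ) (S : Finset Nat.Primes)

/-- **GO4, finite level, induced form.** -/
def FLCokerSpec : Prop :=
  ∀ (K₀ L : Level S) (h : K₀ ≤ L) (t t' : ∀ q : S, groupCohomology (semiLoc h q.1) 2),
    (∀ q : S, p • t q = 0) → (∀ q : S, p • t' q = 0) →
    ∃ a b : ℕ, (¬ p ∣ a ∨ ¬ p ∣ b) ∧
      ∃ (L' : Level S) (h' : L ≤ L') (e : groupCohomology (indF (h.trans h') (sUnits L')) 2),
        p • e = 0 ∧
        ∀ q : S, locH2 (h.trans h') q.1 e = inflLoc h q.1 h' (a • t q + b • t' q)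

/-- **Local descent to the `S`-tower.** -/
def LocDescSpec : Prop :=
  ∀ (K₀ : Level S) (q : S)
    (X : Gl q.1 × Gl q.1 → K.ind (rl q.1) K₀.U (Tow.unitsQpbar q.1)),
    X ∈ (localLevels q.1).Z2 (K.ind (rl q.1) K₀.U (Tow.unitsQpbar q.1)) →
    p • X ∈ (localLevels q.1).B2 (K.ind (rl q.1) K₀.U (Tow.unitsQpbar q.1)) →
    ∃ (L : Level S) (h : K₀ ≤ L) (τ : L.Dec q.1 × L.Dec q.1 → (semiLoc h q.1).V),
      τ ∈ cocycles₂ (semiLoc h q.1) ∧ p • τ ∈ coboundaries₂ (semiLoc h q.1) ∧
      X - locM h q.1 τ ∈ (localLevels q.1).B2 (K.ind (rl q.1) K₀.U (Tow.unitsQpbar q.1))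

/-- leaf **GO4-SHAP**: tower form (subgroups, `J = ∏ Coind`) ⇒ induced form. -/
def ShapLeaf : Prop := K.AR.CokerTower S p → FLCokerSpec p S

/-- leaf **GO4-LD**: local descent, from the unboundedness of the local `p`-degrees in the
`S`-tower (`K.AR.DecUnbounded`, leaf AR-DEG) and the closed local theory (layers KC, L). -/
def LocDescLeaf : Prop := p.Prime → K.AR.DecUnbounded S p → LocDescSpec p S

/-- **GO4-ASM** (helper3, `Inv/GO4/Asm.lean`): the assembly, exact type. -/
def AsmSpec : Prop :=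
  ∀ [Fact p.Prime], FLCokerSpec p S → LocDescSpec p S → Inv.CokerESpec p S

end Fermat.Agent.S55.Inv.GO4

end
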