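import Fermat.Agent.S55.Inv.GO4.ShapGenH593
import Fermat.Agent.S55.Inv.GO4.Spec
import Fermat.Agent.S55.K.AR.LibH998
import Fermat.Agent.S55.T.SumH635

/-!
# S55 / `InvSpec` / GO4-SHAP : `shapLeaf : ShapLeaf p S`  (helper593)

`K.AR.CokerTower S p → FLCokerSpec p S`  (finite Shapiro, `coord/S55-INV-GO4.md` §2).

For levels `K₀ ≤ L` (`h`), `Q = Gal(K₀/ℚ)`, `H = Gal(L/K₀) = ker (proj h)`:

* `alpha h H hH X n : Hⁿ(Gal(L/ℚ), (Q →₀ X)) → Hⁿ(H, X)` (restriction + coefficient at `1 ∈ Q`),
  bijective (`alpha_bijective`), natural in `X` (`alpha_coe`) and in the level (`alpha_infl`);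
* `beta h q n : Hⁿ(Gal(L/ℚ), (Q →₀ J_q(L))) → Hⁿ(Dec_q(L), (Q →₀ L_qˣ))` (restriction along
  `decHom` + coefficientwise evaluation at `1`), bijective (`beta_bijective`), compatible with the
  localisation (`beta_diag`) and the inflations (`beta_infl`).
-/

set_option autoImplicit false
set_option linter.unusedSectionVars false
set_option linter.style.haveILetI false

open CategoryTheory groupCohomology

noncomputable section

namespace Fermat.Agent.S55.Inv.GO4.H593

open Fermat.Agent.S55 Fermat.Agent.S55.Tow Fermat.Agent.S55.E1.Lim Fermat.Agent.S55.Inv.GO4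
open Fermat.Agent.S55.K.AR

attribute [local instance 10000] Rep.hV2

variable {S : Finset Nat.Primes}

section Tower

variable {K₀ L : Level S} (h : K₀ ≤ L)

lemma proj_surjective : Function.Surjective (Level.proj h) := by
  intro g
  induction g using QuotientGroup.induction_on with
  | H g => exact ⟨QuotientGroup.mk g, rfl⟩

/-- `H` is the kernel of `Gal(L/ℚ) → Gal(K₀/ℚ)`. -/
def IsKer (H : Subgroup L.Gal) : Prop := ∀ g, g ∈ H ↔ Level.proj h g = 1

lemma isKer_relGal : IsKer h (Level.relGal h) := fun _ => MonoidHom.mem_ker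

lemma isKer_up {L' : Level S} (h' : L ≤ L') {H : Subgroup L.Gal} (hH : IsKer h H) :
    IsKer (h.trans h') (up h' H) := fun g => by
  rw [← proj_proj h h' g, ← hH]
  exact Subgroup.mem_comap

/-! ### `α` -/

/-- coefficient at `1 ∈ Gal(K₀/ℚ)` -/
def alphaC (H : Subgroup L.Gal) (hH : IsKer h H) (X : Rep.{0} ℤ L.Gal) :
    Rep.res H.subtype (indF h X) ⟶ T.resSub X H :=
  ev1Q (Level.proj h) H (fun g hg => (hH g).1 hg) X

/-- `α_X : Hⁿ(Gal(L/ℚ), (Q →₀ X)) → Hⁿ(H, X)`. -/
def alpha (H : Subgroup L.Gal) (hH : IsKer h H) (X : Rep.{0} ℤ L.Gal) (n : ℕ) :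
    groupCohomology (indF h X) n →ₗ[ℤ] Hn H X n :=
  (groupCohomology.map H.subtype (alphaC h H hH X) n).hom

theorem alpha_bijective (H : Subgroup L.Gal) (hH : IsKer h H) (X : Rep.{0} ℤ L.Gal) (n : ℕ) :
    Function.Bijective (alpha h H hH X n) :=
  ev1Q_bijective (Level.proj h) (proj_surjective h) H hH X n

/-- `α` is natural in the coefficients. -/
theorem alpha_coe (H : Subgroup L.Gal) (hH : IsKer h H) {X Y : Rep.{0} ℤ L.Gal} (f : X ⟶ Y)
    (n : ℕ) (x : groupCohomology (indF h X) n) :
    alpha h H hH Y n ((T.coeffMap (indFMap h f) n).hom x) = coe H f n (alpha h H hH X n x) :=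
  H998.map_map_eq (A := indF h X) (B := indF h Y) (B' := T.resSub X H) (C := T.resSub Y H)
    (MonoidHom.id L.Gal) H.subtype H.subtype (MonoidHom.id ↥H)
    (indFMap h f) (alphaC h H hH Y) (alphaC h H hH X) ((Rep.resFunctor H.subtype).map f)
    (fun _ => rfl) (fun _ => rfl) n x

/-- `α` commutes with inflation. -/
theorem alpha_infl {L' : Level S} (h' : L ≤ L') (H : Subgroup L.Gal) (hH : IsKer h H)
    {X : Rep.{0} ℤ L.Gal} {X' : Rep.{0} ℤ L'.Gal} (t : Rep.res (Level.proj h') X ⟶ X')
    (n : ℕ) (x : groupCohomology (indF h X) n) :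
    alpha (h.trans h') (up h' H) (isKer_up h h' hH) X' n
        ((groupCohomology.map (Level.proj h') (indFTr h h' t) n).hom x) =
      infUp h' H t n (alpha h H hH X n x) :=
  H998.map_map_eq (A := indF h X) (B := indF (h.trans h') X') (B' := T.resSub X H)
    (C := T.resSub X' (up h' H))
    (Level.proj h') (up h' H).subtype H.subtype (projSub (Level.proj h') H)
    (indFTr h h' t) (alphaC (h.trans h') (up h' H) (isKer_up h h' hH) X') (alphaC h H hH X)
    (semiSub (Level.proj h') H t)
    (fun _ => rfl) (fun _ => rfl) n x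

/-! ### `β` -/

/-- coefficientwise evaluation at `1 ∈ Gal(L/ℚ)` -/
def betaC (q : Nat.Primes) : Rep.res (L.decHom q) (indF h (L.J q)) ⟶ semiLoc h q :=
  evC (Level.proj h) (L.decHom q) (L.locUnits q)

/-- `β_q : Hⁿ(Gal(L/ℚ), (Q →₀ J_q(L))) → Hⁿ(Dec_q(L), (Q →₀ L_qˣ))`. -/
def beta (q : Nat.Primes) (n : ℕ) :
    groupCohomology (indF h (L.J q)) n →ₗ[ℤ] groupCohomology (semiLoc h q) n :=
  (groupCohomology.map (L.decHom q) (betaC h q) n).hom

theorem beta_bijective (q : Nat.Primes) (n : ℕ) : Function.Bijective (beta h q n) :=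
  evC_bijective (Level.proj h) (L.decHom q) (L.decHom_injective q) (L.locUnits q) n

/-- `β ∘ (Ind (diag_q ∘ incl))_* = loc_q`. -/
theorem beta_diag (q : Nat.Primes) (e : groupCohomology (indF h (sUnits L)) 2) :
    beta h q 2 ((T.coeffMap (indFMap h (sIncl L ≫ L.diag q)) 2).hom e) = locH2 h q e :=
  H998.map_comp_apply (X := indF h (sUnits L)) (X' := indF h (L.J q)) (X'' := semiLoc h q)
    (MonoidHom.id L.Gal) (L.decHom q) (L.decHom q)
    (indFMap h (sIncl L ≫ L.diag q)) (betaC h q) (locF h q) (fun _ => rfl)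
    (fun x => by
      apply dInd_ext
      intro y
      show L.embFun q ((sIncl L).hom (toFs _ _ x y)) =
        L.embFun q (L.units.ρ 1 ((sIncl L).hom (toFs _ _ x y)))
      rw [map_one]
      rfl) 2 e

/-- `β` commutes with inflation. -/
theorem beta_infl {L' : Level S} (h' : L ≤ L') (q : Nat.Primes)
    (z : groupCohomology (indF h (L.J q)) 2) :
    beta (h.trans h') q 2
        ((groupCohomology.map (Level.proj h') (indFTr h h' (Level.trJ h' q)) 2).hom z) =
      inflLoc h q h' (beta h q 2 z) :=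
  H998.map_map_eq (A := indF h (L.J q)) (B := indF (h.trans h') (L'.J q))
    (B' := semiLoc h q) (C := semiLoc (h.trans h') q)
    (Level.proj h') (L'.decHom q) (L.decHom q) (Level.projDec h' q)
    (indFTr h h' (Level.trJ h' q)) (betaC (h.trans h') q) (betaC h q) (semiLocTr h q h')
    (fun d => Level.proj_decHom h' q d)
    (fun a => by
      apply dInd_ext
      intro y
      show Level.inclLoc h' q (L.Jeval q (toFs _ _ a y) (Level.proj h' 1)) =
        Level.inclLoc h' q (L.Jeval q (toFs _ _ a y) 1)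
      rw [map_one]) 2 z

end Tower


/-! ### The product `J = ∏_q J_q` -/

section Prod

variable {L : Level S} (H : Subgroup L.Gal)

/-- the projection `J(L) ⟶ J_q(L)` -/
def pj (L : Level S) (q : S) : Jtot L ⟶ L.J q.1 := piProj (fun q : S => L.J q.1) q

lemma pj_apply (L : Level S) (q : S) (x : (Jtot L).V) : (pj L q).hom x = piTo x q := rfl

/-- `H²(H, J(L)) → ∏_q H²(H, J_q(L))` is bijective. -/
theorem prod_bijective (n : ℕ) :
    Function.Bijective (fun (x : Hn H (Jtot L) n) (q : S) => coe H (pj L q) n x) :=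
  T.H635.finiteProd ℤ ↥H S (fun q : S => T.resSub (L.J q.1) H) (T.resSub (Jtot L) H)
    (fun q => (Rep.resFunctor H.subtype).map (pj L q))
    Function.bijective_id n

/-- `coe` is functorial. -/
theorem coe_comp_apply {A B C : Rep.{0} ℤ L.Gal} (f : A ⟶ B) (g : B ⟶ C) (n : ℕ)
    (x : Hn H A n) : coe H g n (coe H f n x) = coe H (f ≫ g) n x :=
  H998.map_comp_apply (X := T.resSub A H) (X' := T.resSub B H) (X'' := T.resSub C H)
    (MonoidHom.id ↥H) (MonoidHom.id ↥H) (MonoidHom.id ↥H)
    ((Rep.resFunctor H.subtype).map f) ((Rep.resFunctor H.subtype).map g)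
    ((Rep.resFunctor H.subtype).map (f ≫ g)) (fun _ => rfl) (fun _ => rfl) n x

end Prod

/-! ### The leaf -/

/-- **GO4-SHAP.** -/
theorem shapLeaf (p : ℕ) (S : Finset Nat.Primes) : ShapLeaf p S := by
  intro hCT K₀ L h t t' ht ht'
  have hH : IsKer h (Level.relGal h) := isKer_relGal h
  -- preimages under `β`
  have hβ := fun q : S => beta_bijective h q.1 2
  choose u hu using fun q : S => (hβ q).2 (t q)
  choose u' hu' using fun q : S => (hβ q).2 (t' q)
  have hpu : ∀ q : S, p • u q = 0 := fun q =>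
    (hβ q).1 (by rw [map_nsmul, hu, ht, map_zero])
  have hpu' : ∀ q : S, p • u' q = 0 := fun q =>
    (hβ q).1 (by rw [map_nsmul, hu', ht', map_zero])
  -- the classes `x_q`, `x'_q` and their products
  have hprod := prod_bijective (Level.relGal h) 2
  obtain ⟨x, hx⟩ := hprod.2 (fun q : S => alpha h _ hH (L.J q.1) 2 (u q))
  obtain ⟨x', hx'⟩ := hprod.2 (fun q : S => alpha h _ hH (L.J q.1) 2 (u' q))
  have hxq : ∀ q : S, coe (Level.relGal h) (pj L q) 2 x =
      alpha h _ hH (L.J q.1) 2 (u q) := fun q => congrFun hx q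
  have hxq' : ∀ q : S, coe (Level.relGal h) (pj L q) 2 x' =
      alpha h _ hH (L.J q.1) 2 (u' q) := fun q => congrFun hx' q
  have hpx : p • x = 0 := by
    apply hprod.1
    funext q
    show coe (Level.relGal h) (pj L q) 2 (p • x) =
      coe (Level.relGal h) (pj L q) 2 0
    rw [map_nsmul, hxq, ← map_nsmul, hpu, map_zero, map_zero]
  have hpx' : p • x' = 0 := by
    apply hprod.1
    funext q
    show coe (Level.relGal h) (pj L q) 2 (p • x') =
      coe (Level.relGal h) (pj L q) 2 0
    rw [map_nsmul, hxq', ← map_nsmul, hpu', map_zero, map_zero]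
  -- the tower statement
  obtain ⟨a, b, hab, L', h', y, hy, hyx⟩ := hCT L (Level.relGal h) x x' hpx hpx'
  have hH' : IsKer (h.trans h') (up h' (Level.relGal h)) := isKer_up h h' hH
  have hα' := alpha_bijective (h.trans h') _ hH' (sUnits L') 2
  obtain ⟨e, he⟩ := hα'.2 y
  refine ⟨a, b, hab, L', h', e, hα'.1 (by rw [map_nsmul, he, hy, map_zero]), fun q => ?_⟩
  have hαJ := alpha_bijective (h.trans h') _ hH' (L'.J q.1) 2
  have h1 : (T.coeffMap (indFMap (h.trans h') (sIncl L' ≫ L'.diag q.1)) 2).hom e =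
      (groupCohomology.map (Level.proj h') (indFTr h h' (Level.trJ h' q.1)) 2).hom
        (a • u q + b • u' q) := by
    apply hαJ.1
    rw [alpha_coe, he, alpha_infl h h' _ hH]
    have h2 : coe (up h' (Level.relGal h)) (sIncl L' ≫ L'.diag q.1) 2 y =
        coe (up h' (Level.relGal h)) (pj L' q) 2
          (coe (up h' (Level.relGal h)) (diagTot L') 2 y) :=
      (coe_comp_apply (up h' (Level.relGal h)) (diagTot L')
        (pj L' q) 2 y).symm
    rw [h2, hyx, H998.coe_infUp h' (Level.relGal h) (pj L q)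
      (pj L' q) (trJtot h') (Level.trJ h' q.1) (fun _ => rfl) 2]
    congr 1
    rw [map_add, map_nsmul, map_nsmul, map_add, map_nsmul, map_nsmul, hxq, hxq']
  rw [← beta_diag, h1, beta_infl, map_add, map_nsmul, map_nsmul, hu, hu']

end Fermat.Agent.S55.Inv.GO4.H593

end
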