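import Fermat.Agent.S55.Inv.GO4.Asm
import Fermat.Agent.S55.Inv.CokEH99

/-!
# S55 / GO4 dictionary: the assembly in the exact type `AsmSpec` (helper3)

`asm p S : AsmSpec p S`, i.e. `FLCokerSpec p S → LocDescSpec p S → Inv.CokerESpec p S`
(the `μ_p`-valued form of `Inv/SpecK.lean`, consumed by `PT/Final*.lean`), from `go4_core`.
-/

set_option autoImplicit false
set_option maxHeartbeats 400000
set_option linter.unusedSectionVars false

noncomputable section

namespace Fermat.Agent.S55.Inv.GO4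

open Fermat.Agent.S55 Fermat.Agent.S55.Tow Fermat.Agent.S55.E1.Lim groupCohomology
open Fermat.Agent.S55.PT Fermat.Agent.S55.Bridge ExtCitation

variable (p : ℕ) [Fact p.Prime] (S : Finset Nat.Primes)

/-- `indMuToL ∘ x` is a level-constant cocycle with values in `Ind_U ℚ̄_qˣ`, killed by `p`. -/
lemma indMuToL_comp_mem (q : Nat.Primes) (U : Subgroup PT.GQ) [U.Normal]
    (x : Gl q × Gl q → K.indG U (muP p))
    (hx : x ∈ (localLevels q).Z2 (Rep.res (rl q) (K.indG U (muP p)))) :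
    (indMuToL p S q U ∘ x : Gl q × Gl q → K.ind (rl q) U (Tow.unitsQpbar q)) ∈
        (localLevels q).Z2 (K.ind (rl q) U (Tow.unitsQpbar q)) ∧
      p • (indMuToL p S q U ∘ x : Gl q × Gl q → K.ind (rl q) U (Tow.unitsQpbar q)) ∈
        (localLevels q).B2 (K.ind (rl q) U (Tow.unitsQpbar q)) := by
  have hι := (Inv.H99.isKummerEmb_indMuToL p S q U).equivariant
  refine ⟨⟨?_, LevelSys.IsLC₂.comp hx.2 _⟩, ?_⟩
  · have h1 := (mem_cocycles₂_iff _).1 hx.1
    show (indMuToL p S q U ∘ x : Gl q × Gl q → K.ind (rl q) U (Tow.unitsQpbar q)) ∈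
      cocycles₂ (K.ind (rl q) U (Tow.unitsQpbar q))
    rw [mem_cocycles₂_iff]
    intro g h j
    have h2 := congrArg (indMuToL p S q U) (h1 g h j)
    rw [map_add, map_add, hι] at h2
    exact h2
  · have h0 : p • (indMuToL p S q U ∘ x : Gl q × Gl q → K.ind (rl q) U (Tow.unitsQpbar q)) = 0 := by
      funext z
      show p • indMuToL p S q U (x z) = 0
      rw [← map_nsmul]
      have : p • x z = 0 := by
        rw [← Nat.cast_smul_eq_nsmul (ZMod p), ZMod.natCast_self, zero_smul]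
      rw [this, map_zero]
    rw [h0]
    exact Submodule.zero_mem _

/-- the body of `Inv.CokerESpec`, for `U = K₀.U` -/
theorem asm_core (hFL : FLCokerSpec p S) (hLD : LocDescSpec p S) (K₀ : Level S)
    (x x' : (q : ↥S) → (Gl q.1 × Gl q.1 → K.indG K₀.U (muP p)))
    (hx : ∀ q : ↥S, x q ∈ (localLevels q.1).Z2 (Rep.res (rl q.1) (K.indG K₀.U (muP p))))
    (hx' : ∀ q : ↥S, x' q ∈ (localLevels q.1).Z2 (Rep.res (rl q.1) (K.indG K₀.U (muP p)))) :
    ∃ a b : ZMod p, (a ≠ 0 ∨ b ≠ 0) ∧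
      ∃ e ∈ (globalLevels S).Z2 (K.indG K₀.U (K.sUnits S)),
        p • e ∈ (globalLevels S).B2 (K.indG K₀.U (K.sUnits S)) ∧
        ∀ q : ↥S,
          ((K.indLocE q.1 S K₀.U ∘ e ∘ Prod.map (rl q.1) (rl q.1) :
              Gl q.1 × Gl q.1 → K.ind (rl q.1) K₀.U (Tow.unitsQpbar q.1)) -
            indMuToL p S q.1 K₀.U ∘ (a • x q + b • x' q)) ∈
            (localLevels q.1).B2 (K.ind (rl q.1) K₀.U (Tow.unitsQpbar q.1)) := by
  obtain ⟨a, b, hab, y, hyZ, hyB, hyloc⟩ := go4_core p S hFL hLD K₀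
    (fun q => indMuToL p S q.1 K₀.U ∘ x q)
    (fun q => indMuToL p S q.1 K₀.U ∘ x' q)
    (fun q => indMuToL_comp_mem p S q.1 K₀.U (x q) (hx q))
    (fun q => indMuToL_comp_mem p S q.1 K₀.U (x' q) (hx' q))
  refine ⟨(a : ZMod p), (b : ZMod p), ?_, y, hyZ, hyB, fun q => ?_⟩
  · by_contra hcon
    rw [not_or, not_not, not_not] at hcon
    exact hab ⟨(ZMod.intCast_zmod_eq_zero_iff_dvd a p).1 hcon.1,
      (ZMod.intCast_zmod_eq_zero_iff_dvd b p).1 hcon.2⟩
  · have h1 := Submodule.neg_mem _ (hyloc q)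
    have h2 : ((K.indLocE q.1 S K₀.U ∘ y ∘ Prod.map (rl q.1) (rl q.1) :
              Gl q.1 × Gl q.1 → K.ind (rl q.1) K₀.U (Tow.unitsQpbar q.1)) -
            indMuToL p S q.1 K₀.U ∘ ((a : ZMod p) • x q + (b : ZMod p) • x' q)) =
        -(a • (indMuToL p S q.1 K₀.U ∘ x q) + b • (indMuToL p S q.1 K₀.U ∘ x' q) -
          fun z : Gl q.1 × Gl q.1 =>
            (K.indLocE q.1 S K₀.U).toAddMonoidHom (y (rl q.1 z.1, rl q.1 z.2))) := by
      funext z
      simp only [Pi.sub_apply, Pi.neg_apply, Pi.add_apply, Pi.smul_apply, Function.comp_apply,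
        neg_sub, map_add, Int.cast_smul_eq_zsmul, map_zsmul]
      rfl
    rw [h2]
    exact h1

/-- **GO4-ASM, exact type.** -/
theorem asm : AsmSpec p S := by
  intro _ hFL hLD _hp2 _hpS U hU hUn _hcyc x x' hx hx'
  obtain ⟨F, hF, rfl⟩ := hU
  exact asm_core p S hFL hLD ⟨F, hF, hUn⟩ x x' hx hx'

end Fermat.Agent.S55.Inv.GO4

end
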