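import Fermat.Agent.S55.Inv.GO4.LocM
import Fermat.Agent.S55.Inv.GO4.Spec
import Fermat.Agent.S55.Inv.H90H99

/-!
# S55 / GO4 dictionary: the ASSEMBLY (helper3)

`go4_of : FLCokerSpec p S → LocDescSpec p S → Inv.H99.GO4Spec p S`, hence
`globCoker_of_fl : p ≠ 2 → pPrime p ∈ S → FLCokerSpec p S → LocDescSpec p S → Inv.GlobCokerSpec p S`
and, with the two leaves,
`globCoker_of_tower : … → ShapLeaf p S → LocDescLeaf p S → K.AR.CokerTower S p →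
   K.AR.DecUnbounded S p → Inv.GlobCokerSpec p S`.
-/

set_option autoImplicit false
set_option maxHeartbeats 400000
set_option linter.unusedSectionVars false

noncomputable section

namespace Fermat.Agent.S55.Inv.GO4

open Fermat.Agent.S55 Fermat.Agent.S55.Tow Fermat.Agent.S55.E1.Lim groupCohomology
open Fermat.Agent.S55.PT CategoryTheory

variable {S : Finset Nat.Primes}

/-! ## 1. The levels are directed -/

/-- the compositum of two levels -/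
def lSup (L L' : Level S) : Level S where
  F := L.F ⊔ L'.F
  unram := L.unram.sup L'.unram
  normalU := by
    rw [IntermediateField.fixingSubgroup_sup]
    haveI := L.normalU
    haveI := L'.normalU
    exact Subgroup.normal_inf_normal _ _

lemma le_lSup_left (L L' : Level S) : L ≤ lSup L L' :=
  show L.F ≤ L.F ⊔ L'.F from le_sup_left

lemma le_lSup_right (L L' : Level S) : L' ≤ lSup L L' :=
  show L'.F ≤ L.F ⊔ L'.F from le_sup_right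

lemma exists_level_ge {ι : Type} [Finite ι] (f : ι → Level S) (L₀ : Level S) :
    ∃ L : Level S, L₀ ≤ L ∧ ∀ i, f i ≤ L := by
  haveI : Nonempty (Level S) := ⟨L₀⟩
  haveI : IsDirectedOrder (Level S) :=
    ⟨fun a a' => ⟨lSup a a', le_lSup_left a a', le_lSup_right a a'⟩⟩
  obtain ⟨M, hM⟩ := Finite.exists_le f
  exact ⟨lSup L₀ M, le_lSup_left L₀ M, fun i => (hM i).trans (le_lSup_right L₀ M)⟩

/-! ## 2. Classes and cocycles -/

section Coh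

variable {G H : Type} [Group G] [Group H] {A : Rep.{0} ℤ H} {B : Rep.{0} ℤ G}
  (f : G →* H) (φ : Rep.res f A ⟶ B)

lemma map_H2π (x : cocycles₂ A) :
    (groupCohomology.map f φ 2).hom (H2π A x) = H2π B (mapCocycles₂ f φ x) :=
  H2π_comp_map_apply f φ x

lemma mapCocycles₂_fun (x : cocycles₂ A) :
    (⇑(mapCocycles₂ f φ x) : G × G → B) = fun g => φ.hom (x (f g.1, f g.2)) := rfl

lemma exists_H2π (e : groupCohomology A 2) : ∃ ε : cocycles₂ A, H2π A ε = e :=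
  H2_induction_on (C := fun e => ∃ ε : cocycles₂ A, H2π A ε = e) e (fun ε => ⟨ε, rfl⟩)

lemma nsmul_mem_coboundaries₂_of (n : ℕ) (x : cocycles₂ A) (h : n • H2π A x = 0) :
    n • (⇑x : H × H → A) ∈ coboundaries₂ A := by
  rw [← map_nsmul] at h
  exact (H2π_eq_zero_iff (n • x)).1 h

lemma nsmul_H2π_eq_zero (n : ℕ) (x : cocycles₂ A)
    (h : n • (⇑x : H × H → A) ∈ coboundaries₂ A) : n • H2π A x = 0 := by
  rw [← map_nsmul]
  exact (H2π_eq_zero_iff (n • x)).2 h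

end Coh

/-! ## 3. The assembly -/

lemma comb_eq {M : Type} [AddCommGroup M] (a b : ℕ) (x x' y t t' : M) :
    (a : ℤ) • x + (b : ℤ) • x' - y =
      (a : ℤ) • (x - t) + (b : ℤ) • (x' - t') - (y - (a • t + b • t')) := by
  rw [smul_sub, smul_sub, natCast_zsmul t a, natCast_zsmul t' b]
  abel

theorem go4_core (p : ℕ) (S : Finset Nat.Primes)
    (hFL : FLCokerSpec p S) (hLD : LocDescSpec p S) (K₀ : Level S)
    (X X' : ∀ v : ↥S, Gl v.1 × Gl v.1 → BLoc K₀ v.1)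
    (hX : ∀ v : ↥S, X v ∈ (localLevels v.1).Z2 (BLoc K₀ v.1) ∧
      p • X v ∈ (localLevels v.1).B2 (BLoc K₀ v.1))
    (hX' : ∀ v : ↥S, X' v ∈ (localLevels v.1).Z2 (BLoc K₀ v.1) ∧
      p • X' v ∈ (localLevels v.1).B2 (BLoc K₀ v.1)) :
    ∃ a b : ℤ, ¬ ((p : ℤ) ∣ a ∧ (p : ℤ) ∣ b) ∧
      ∃ y : Tow.GQ × Tow.GQ → EGlob K₀, y ∈ (globalLevels S).Z2 (EGlob K₀) ∧
        p • y ∈ (globalLevels S).B2 (EGlob K₀) ∧
        ∀ v : ↥S, (a • X v + b • X' v -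
          (fun x : Gl v.1 × Gl v.1 => (K.indLocE v.1 S K₀.U).toAddMonoidHom
            (y (rl v.1 x.1, rl v.1 x.2)))) ∈ (localLevels v.1).B2 (BLoc K₀ v.1) := by
  -- local descent
  choose L₁ h₁ τ₁ hc₁ hp₁ hX₁ using fun v : ↥S => hLD K₀ v (X v) (hX v).1 (hX v).2
  choose L₂ h₂ τ₂ hc₂ hp₂ hX₂ using fun v : ↥S => hLD K₀ v (X' v) (hX' v).1 (hX' v).2
  obtain ⟨L, hK, hL⟩ := exists_level_ge (fun i : ↥S ⊕ ↥S => Sum.elim L₁ L₂ i) K₀
  have hL₁ : ∀ v, L₁ v ≤ L := fun v => hL (Sum.inl v)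
  have hL₂ : ∀ v, L₂ v ≤ L := fun v => hL (Sum.inr v)
  -- the cocycles inflated to `L`
  let c₁ : ∀ v : ↥S, cocycles₂ (semiLoc hK v.1) := fun v =>
    mapCocycles₂ (Level.projDec (hL₁ v) v.1) (semiLocTr (h₁ v) v.1 (hL₁ v)) ⟨τ₁ v, hc₁ v⟩
  let c₂ : ∀ v : ↥S, cocycles₂ (semiLoc hK v.1) := fun v =>
    mapCocycles₂ (Level.projDec (hL₂ v) v.1) (semiLocTr (h₂ v) v.1 (hL₂ v)) ⟨τ₂ v, hc₂ v⟩
  have hc₁t : ∀ v : ↥S, p • H2π (semiLoc hK v.1) (c₁ v) = 0 := fun v => by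
    have h0 : p • H2π (semiLoc (h₁ v) v.1) ⟨τ₁ v, hc₁ v⟩ = 0 :=
      nsmul_H2π_eq_zero p ⟨τ₁ v, hc₁ v⟩ (hp₁ v)
    have h1 := map_H2π (Level.projDec (hL₁ v) v.1) (semiLocTr (h₁ v) v.1 (hL₁ v))
      ⟨τ₁ v, hc₁ v⟩
    show p • H2π (semiLoc ((h₁ v).trans (hL₁ v)) v.1)
      (mapCocycles₂ (Level.projDec (hL₁ v) v.1) (semiLocTr (h₁ v) v.1 (hL₁ v))
        ⟨τ₁ v, hc₁ v⟩) = 0
    rw [← h1, ← map_nsmul, h0, map_zero]
  have hc₂t : ∀ v : ↥S, p • H2π (semiLoc hK v.1) (c₂ v) = 0 := fun v => by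
    have h0 : p • H2π (semiLoc (h₂ v) v.1) ⟨τ₂ v, hc₂ v⟩ = 0 :=
      nsmul_H2π_eq_zero p ⟨τ₂ v, hc₂ v⟩ (hp₂ v)
    have h1 := map_H2π (Level.projDec (hL₂ v) v.1) (semiLocTr (h₂ v) v.1 (hL₂ v))
      ⟨τ₂ v, hc₂ v⟩
    show p • H2π (semiLoc ((h₂ v).trans (hL₂ v)) v.1)
      (mapCocycles₂ (Level.projDec (hL₂ v) v.1) (semiLocTr (h₂ v) v.1 (hL₂ v))
        ⟨τ₂ v, hc₂ v⟩) = 0
    rw [← h1, ← map_nsmul, h0, map_zero]
  -- the finite-level statement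
  obtain ⟨a, b, hab, L', h', e, hpe, hloc⟩ :=
    hFL K₀ L hK (fun v => H2π (semiLoc hK v.1) (c₁ v)) (fun v => H2π (semiLoc hK v.1) (c₂ v))
      hc₁t hc₂t
  obtain ⟨ε, rfl⟩ := exists_H2π e
  have hεp : p • (⇑ε : L'.Gal × L'.Gal → (indF (hK.trans h') (sUnits L')).V) ∈
      coboundaries₂ (indF (hK.trans h') (sUnits L')) := nsmul_mem_coboundaries₂_of p ε hpe
  have hyZ : infE (hK.trans h') ⇑ε ∈ (globalLevels S).Z2 (EGlob K₀) :=
    infE_mem_Z2 (hK.trans h') ε.2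
  have hyB : p • infE (hK.trans h') ⇑ε ∈ (globalLevels S).B2 (EGlob K₀) := by
    rw [← infE_nsmul]
    exact infE_mem_B2 (hK.trans h') hεp
  have hab' : ¬ ((p : ℤ) ∣ (a : ℤ) ∧ (p : ℤ) ∣ (b : ℤ)) := by
    rintro ⟨ha, hb⟩
    rcases hab with h | h
    · exact h (Int.natCast_dvd_natCast.1 ha)
    · exact h (Int.natCast_dvd_natCast.1 hb)
  have hyloc : ∀ v : ↥S, (a : ℤ) • X v + (b : ℤ) • X' v -
      (fun x : Gl v.1 × Gl v.1 => (K.indLocE v.1 S K₀.U).toAddMonoidHom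
        (infE (hK.trans h') ⇑ε (rl v.1 x.1, rl v.1 x.2))) ∈
      (localLevels v.1).B2 (BLoc K₀ v.1) := by
    intro v
    -- localisation at `v`
    have e1 : (fun x : Gl v.1 × Gl v.1 => (K.indLocE v.1 S K₀.U).toAddMonoidHom
        (infE (hK.trans h') ⇑ε (rl v.1 x.1, rl v.1 x.2))) =
        locM (hK.trans h') v.1 (fun d : L'.Dec v.1 × L'.Dec v.1 =>
          (locF (hK.trans h') v.1).hom (ε (L'.decHom v.1 d.1, L'.decHom v.1 d.2))) :=
      indLocE_infE (hK.trans h') v.1 ⇑ε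
    have e2 : H2π (semiLoc (hK.trans h') v.1)
          (mapCocycles₂ (L'.decHom v.1) (locF (hK.trans h') v.1) ε) =
        H2π (semiLoc (hK.trans h') v.1)
          (mapCocycles₂ (Level.projDec h' v.1) (semiLocTr hK v.1 h')
            (a • c₁ v + b • c₂ v)) := by
      rw [← map_H2π, ← map_H2π, map_add, map_nsmul, map_nsmul]
      exact hloc v
    have e3 := locM_mem_B2 (hK.trans h') v.1 ((H2π_eq_iff _ _).1 e2)
    rw [locM_sub, mapCocycles₂_fun, mapCocycles₂_fun] at e3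
    have s2 : (⇑(a • c₁ v + b • c₂ v) : L.Dec v.1 × L.Dec v.1 → (semiLoc hK v.1).V) =
        a • ⇑(c₁ v) + b • ⇑(c₂ v) := rfl
    have s3 : locM hK v.1 ⇑(c₁ v) = locM (h₁ v) v.1 (τ₁ v) := by
      have := mapCocycles₂_fun (Level.projDec (hL₁ v) v.1) (semiLocTr (h₁ v) v.1 (hL₁ v))
        ⟨τ₁ v, hc₁ v⟩
      show locM hK v.1 ⇑(mapCocycles₂ (Level.projDec (hL₁ v) v.1)
        (semiLocTr (h₁ v) v.1 (hL₁ v)) ⟨τ₁ v, hc₁ v⟩) = _
      rw [this]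
      exact locM_infl (h₁ v) v.1 (hL₁ v) (τ₁ v)
    have s4 : locM hK v.1 ⇑(c₂ v) = locM (h₂ v) v.1 (τ₂ v) := by
      have := mapCocycles₂_fun (Level.projDec (hL₂ v) v.1) (semiLocTr (h₂ v) v.1 (hL₂ v))
        ⟨τ₂ v, hc₂ v⟩
      show locM hK v.1 ⇑(mapCocycles₂ (Level.projDec (hL₂ v) v.1)
        (semiLocTr (h₂ v) v.1 (hL₂ v)) ⟨τ₂ v, hc₂ v⟩) = _
      rw [this]
      exact locM_infl (h₂ v) v.1 (hL₂ v) (τ₂ v)
    rw [locM_infl hK v.1 h' ⇑(a • c₁ v + b • c₂ v), s2, locM_add, locM_nsmul, locM_nsmul, s3, s4,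
      ← e1] at e3
    -- combine
    have f1 := ((localLevels v.1).B2 (BLoc K₀ v.1)).smul_mem (a : ℤ) (hX₁ v)
    have f2 := ((localLevels v.1).B2 (BLoc K₀ v.1)).smul_mem (b : ℤ) (hX₂ v)
    have f3 := ((localLevels v.1).B2 (BLoc K₀ v.1)).sub_mem
      (((localLevels v.1).B2 (BLoc K₀ v.1)).add_mem f1 f2) e3
    rw [comb_eq a b (X v) (X' v) _ (locM (h₁ v) v.1 (τ₁ v)) (locM (h₂ v) v.1 (τ₂ v))]
    exact f3
  have hy : ∃ y : Tow.GQ × Tow.GQ → EGlob K₀, y = infE (hK.trans h') ⇑ε := ⟨_, rfl⟩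
  obtain ⟨y, hy⟩ := hy
  rw [← hy] at hyZ hyB hyloc
  exact ⟨(a : ℤ), (b : ℤ), hab', y, hyZ, hyB, hyloc⟩

/-- **GO4 from the finite-level statements.** -/
theorem go4_of (p : ℕ) [Fact p.Prime] (S : Finset Nat.Primes)
    (hFL : FLCokerSpec p S) (hLD : LocDescSpec p S) : Inv.H99.GO4Spec p S := by
  intro _hp2 _hpS U hU hUn _hμ X X' hX hX'
  obtain ⟨F, hF, rfl⟩ := hU
  exact go4_core p S hFL hLD ⟨F, hF, hUn⟩ X X' hX hX'

/-- **INV-COK from the finite-level statements.** -/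
theorem globCoker_of_fl (p : ℕ) [Fact p.Prime] (S : Finset Nat.Primes) (hp2 : p ≠ 2)
    (hpS : ExtCitation.pPrime p ∈ S) (hFL : FLCokerSpec p S) (hLD : LocDescSpec p S) :
    Inv.GlobCokerSpec p S :=
  Inv.H99.globCoker_of_GO4 p S hp2 hpS (go4_of p S hFL hLD)

/-- **INV-COK from the tower** (modulo the two leaves GO4-SHAP, GO4-LD). -/
theorem globCoker_of_tower (p : ℕ) [Fact p.Prime] (S : Finset Nat.Primes) (hp2 : p ≠ 2)
    (hpS : ExtCitation.pPrime p ∈ S) (hShap : ShapLeaf p S) (hLDL : LocDescLeaf p S)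
    (hCok : K.AR.CokerTower S p) (hDeg : K.AR.DecUnbounded S p) :
    Inv.GlobCokerSpec p S :=
  globCoker_of_fl p S hp2 hpS (hShap hCok) (hLDL (Fact.out : p.Prime) hDeg)

end Fermat.Agent.S55.Inv.GO4

end
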