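import Fermat.Agent.S55.K.Defs
import Fermat.Agent.S55.E1.Lim.Obj

/-!
# S55 / `InvSpec` / GO4 (cokernel of the localisation map): DICTIONARY, definitions
(sub-architect helper3; blueprint `coord/S55-INV-GO4.md`)

The arithmetic core of `Inv.GlobCokerSpec` is `Inv.CokerESpec p S` (`Inv/SpecK.lean`; adapter
`Inv.H99.globCoker_of_cokerE`), a statement about level-constant cochains of `G_ℚ` with values in
`Ind_U 𝔼` and of the local groups `G_q` with values in `Ind_U ℚ̄_qˣ`.  Its tower form is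
`K.AR.CokerTower S p` (helper4, `K/AR/Spec.lean`).  The DICTIONARY between the two is organised
here.  Finite-level vocabulary, on the canonical tower `Tow.Level S` with the level objects of
`E1/Lim/Obj.lean`  (`K₀ ≤ L` levels, `Q = Gal(K₀/ℚ)`):

* `dInd φ A`          : `(Q →₀ A)` with the diagonal action of `Γ` (through `φ : Γ →* Q` on `Q`);
* `indF h X`          : `(Q →₀ X)`, `X` a `Gal(L/ℚ)`-module `= Ind_{Gal(L/K₀)}^{Gal(L/ℚ)} X`;
* `semiLoc h q`       : `(Q →₀ L_qˣ)` as a module over the decomposition group `Dec_q(L)`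
                        (`= ⊕_{w | q} Ind_{Gal(L_q/K₀,q)}^{Dec_q(L)} L_qˣ`);
* `locF h q`          : `Res_{Dec_q(L)} indF h E_S(L) ⟶ semiLoc h q`   (coefficientwise `E(L) → L_qˣ`);
* `semiLocTr h h' q`  : transition `semiLoc h q → semiLoc (h.trans h') q` along `Dec_q(L') → Dec_q(L)`;
* `locH2`, `inflLoc`  : the maps induced on `H²` (Mathlib `groupCohomology` of FINITE groups);
* `locM h q τ`        : the level-constant 2-cochain of `G_q` with values in
                        `K.ind (rl q) K₀.U ℚ̄_qˣ` defined by a 2-cochain `τ` of `Dec_q(L)` with values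
                        in `semiLoc h q` (inflation along `G_q → Dec_q(L)` + `L_qˣ ⊂ ℚ̄_qˣ`).
-/

set_option autoImplicit false
set_option linter.unusedSectionVars false

noncomputable section

namespace Fermat.Agent.S55.Inv.GO4

open Fermat.Agent.S55 Fermat.Agent.S55.Tow Fermat.Agent.S55.E1.Lim groupCohomology CategoryTheory

variable {S : Finset Nat.Primes}

/-! ## 1. Finite-level induced modules -/

section Gen

variable {k : Type} [CommRing k] {Γ Q : Type} [Group Γ] [Group Q]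

/-- the diagonal action of `g ∈ Γ` on `(Q →₀ A)`, `Γ` acting on `Q` through `φ : Γ →* Q` by left
translation -/
def dAct (φ : Γ →* Q) (A : Rep.{0, 0, 0} k Γ) (g : Γ) : (Q →₀ A) →ₗ[k] (Q →₀ A) :=
  (Finsupp.lmapDomain A k (fun x : Q => φ g * x)).comp (Finsupp.mapRange.linearMap (A.ρ g))

@[simp] lemma dAct_single (φ : Γ →* Q) (A : Rep.{0, 0, 0} k Γ) (g : Γ) (x : Q) (a : A) :
    dAct φ A g (Finsupp.single x a) = Finsupp.single (φ g * x) (A.ρ g a) := by
  simp [dAct]

/-- the diagonal representation of `Γ` on `(Q →₀ A)` -/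
def dRho (φ : Γ →* Q) (A : Rep.{0, 0, 0} k Γ) : Representation k Γ (Q →₀ A) where
  toFun := dAct φ A
  map_one' := by
    ext x a : 2
    simp
  map_mul' g g' := by
    ext x a : 2
    simp [mul_assoc]

/-- `(Q →₀ A)` with the diagonal action of `Γ` (`Γ` acts on `Q` through `φ`). -/
def dInd (φ : Γ →* Q) (A : Rep.{0, 0, 0} k Γ) : Rep.{0, 0, 0} k Γ := Rep.of (dRho φ A)

lemma dInd_ρ_single (φ : Γ →* Q) (A : Rep.{0, 0, 0} k Γ) (g : Γ) (x : Q) (a : A) :
    (dInd φ A).ρ g (Finsupp.single x a : Q →₀ A) = (Finsupp.single (φ g * x) (A.ρ g a) : Q →₀ A) :=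
  dAct_single φ A g x a

/-- functoriality of `dInd` in the coefficients -/
def dIndMap (φ : Γ →* Q) {A B : Rep.{0, 0, 0} k Γ} (f : A ⟶ B) : dInd φ A ⟶ dInd φ B :=
  Rep.ofHom ⟨(Finsupp.mapRange.linearMap f.hom.toLinearMap : (Q →₀ A) →ₗ[k] (Q →₀ B)),
    fun g => by
      apply Finsupp.lhom_ext
      intro x a
      show Finsupp.mapRange.linearMap f.hom.toLinearMap (dAct φ A g (Finsupp.single x a)) =
        dAct φ B g (Finsupp.mapRange.linearMap f.hom.toLinearMap (Finsupp.single x a))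
      rw [dAct_single, Finsupp.mapRange.linearMap_apply, Finsupp.mapRange_single,
        Finsupp.mapRange.linearMap_apply, Finsupp.mapRange_single, dAct_single]
      congr 1
      exact Rep.hom_comm_apply f g a⟩

/-- transition maps of `dInd`: `π : Γ' →* Γ`, `t : Res_π A ⟶ A'`, coefficientwise `t`;
`φ'` is any homomorphism equal to `φ ∘ π`. -/
def dIndTr {Γ' : Type} [Group Γ'] (φ : Γ →* Q) (π : Γ' →* Γ) (φ' : Γ' →* Q)
    (hφ : ∀ g, φ (π g) = φ' g) {A : Rep.{0, 0, 0} k Γ}
    {A' : Rep.{0, 0, 0} k Γ'} (t : Rep.res π A ⟶ A') :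
    Rep.res π (dInd φ A) ⟶ dInd φ' A' :=
  Rep.ofHom ⟨(Finsupp.mapRange.linearMap t.hom.toLinearMap : (Q →₀ A) →ₗ[k] (Q →₀ A')),
    fun g => by
      apply Finsupp.lhom_ext
      intro x a
      show Finsupp.mapRange.linearMap t.hom.toLinearMap (dAct φ A (π g) (Finsupp.single x a)) =
        dAct φ' A' g (Finsupp.mapRange.linearMap t.hom.toLinearMap (Finsupp.single x a))
      rw [dAct_single, Finsupp.mapRange.linearMap_apply, Finsupp.mapRange_single,
        Finsupp.mapRange.linearMap_apply, Finsupp.mapRange_single, dAct_single, hφ]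
      congr 1
      exact Rep.hom_comm_apply t g a⟩

lemma dIndTr_single {Γ' : Type} [Group Γ'] (φ : Γ →* Q) (π : Γ' →* Γ) (φ' : Γ' →* Q)
    (hφ : ∀ g, φ (π g) = φ' g) {A : Rep.{0, 0, 0} k Γ}
    {A' : Rep.{0, 0, 0} k Γ'} (t : Rep.res π A ⟶ A') (x : Q) (a : A) :
    (dIndTr φ π φ' hφ t).hom (Finsupp.single x a : Q →₀ A) =
      (Finsupp.single x (t.hom a) : Q →₀ A') :=
  Finsupp.mapRange_single (hf := map_zero _)

lemma dIndTr_apply {Γ' : Type} [Group Γ'] (φ : Γ →* Q) (π : Γ' →* Γ) (φ' : Γ' →* Q)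
    (hφ : ∀ g, φ (π g) = φ' g) {A : Rep.{0, 0, 0} k Γ}
    {A' : Rep.{0, 0, 0} k Γ'} (t : Rep.res π A ⟶ A') (f : Q →₀ A) (x : Q) :
    (show Q →₀ A' from (dIndTr φ π φ' hφ t).hom f) x = t.hom (f x) := rfl

end Gen

section IndF

variable {K₀ L : Level S} (h : K₀ ≤ L)

/-- `Ind_{Gal(L/K₀)}^{Gal(L/ℚ)} X = (Gal(K₀/ℚ) →₀ X)` with the diagonal action. -/
abbrev indF (X : Rep.{0} ℤ L.Gal) : Rep.{0} ℤ L.Gal := dInd (Level.proj h) X

/-- functoriality of `indF` in the coefficients -/
abbrev indFMap {X Y : Rep.{0} ℤ L.Gal} (f : X ⟶ Y) : indF h X ⟶ indF h Y :=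
  dIndMap (Level.proj h) f

lemma proj_comp {L' : Level S} (h' : L ≤ L') :
    (Level.proj h).comp (Level.proj h') = Level.proj (h.trans h') := by
  ext g
  rfl

end IndF

/-! ## 2. The semi-local modules at finite level -/

section SemiLoc

variable {K₀ L : Level S} (h : K₀ ≤ L) (q : Nat.Primes)

/-- `Dec_q(L) → Gal(L/ℚ) → Gal(K₀/ℚ)`. -/
abbrev decTo : L.Dec q →* K₀.Gal := (Level.proj h).comp (L.decHom q)

/-- The semi-local module `(Gal(K₀/ℚ) →₀ L_qˣ)` over the decomposition group `Dec_q(L)`. -/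
abbrev semiLoc : Rep.{0} ℤ (L.Dec q) := dInd (decTo h q) (L.locUnits q)

/-- `E_S(L) → L_qˣ`, semilinear along `Dec_q(L) → Gal(L/ℚ)`. -/
def sEmb (L : Level S) (q : Nat.Primes) : Rep.res (L.decHom q) (sUnits L) ⟶ L.locUnits q :=
  semiOfAdd (L.decHom q) (A := sUnits L) (B := L.locUnits q)
    { toFun := fun e => L.embFun q ((sIncl L).hom e)
      map_zero' := by rw [map_zero, map_zero]
      map_add' := fun x y => by rw [map_add, map_add] }
    (fun d e => by
      show L.embFun q ((sIncl L).hom ((sUnits L).ρ (L.decHom q d) e)) =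
        (L.locUnits q).ρ d (L.embFun q ((sIncl L).hom e))
      rw [Rep.hom_comm_apply (sIncl L)]
      exact Rep.hom_comm_apply (L.emb q) d ((sIncl L).hom e))

@[simp] lemma sEmb_apply (L : Level S) (q : Nat.Primes) (e : (sUnits L).V) :
    (sEmb L q).hom e = L.embFun q ((sIncl L).hom e) := rfl

/-- localisation at `q`, finite level, coefficients: `Res_{Dec_q} Ind E_S(L) ⟶ (Q →₀ L_qˣ)`. -/
def locF : Rep.res (L.decHom q) (indF h (sUnits L)) ⟶ semiLoc h q :=
  dIndTr (Level.proj h) (L.decHom q) (decTo h q) (fun _ => rfl) (sEmb L q)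

lemma locF_single (x : K₀.Gal) (e : (sUnits L).V) :
    (locF h q).hom (Finsupp.single x e : K₀.Gal →₀ (sUnits L).V) =
      (Finsupp.single x (L.embFun q ((sIncl L).hom e)) : K₀.Gal →₀ (L.locUnits q).V) :=
  dIndTr_single _ _ _ _ _ x e

lemma proj_proj {L' : Level S} (h' : L ≤ L') (g : L'.Gal) :
    Level.proj h (Level.proj h' g) = Level.proj (h.trans h') g := by
  induction g using QuotientGroup.induction_on with
  | H g => rfl

lemma decTo_projDec {L' : Level S} (h' : L ≤ L') (d : L'.Dec q) :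
    decTo h q (Level.projDec h' q d) = decTo (h.trans h') q d := by
  show Level.proj h (L.decHom q (Level.projDec h' q d)) =
    Level.proj (h.trans h') (L'.decHom q d)
  rw [← Level.proj_decHom h' q d, proj_proj]

/-- transition of the semi-local modules, `L ≤ L'`. -/
def semiLocTr {L' : Level S} (h' : L ≤ L') :
    Rep.res (Level.projDec h' q) (semiLoc h q) ⟶ semiLoc (h.trans h') q :=
  dIndTr (decTo h q) (Level.projDec h' q) (decTo (h.trans h') q) (decTo_projDec h q h')
    (Level.trLoc h' q)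

/-- transition of the global induced modules, `L ≤ L'` (coefficientwise `t`). -/
def indFTr {L' : Level S} (h' : L ≤ L') {X : Rep.{0} ℤ L.Gal} {X' : Rep.{0} ℤ L'.Gal}
    (t : Rep.res (Level.proj h') X ⟶ X') :
    Rep.res (Level.proj h') (indF h X) ⟶ indF (h.trans h') X' :=
  dIndTr (Level.proj h) (Level.proj h') (Level.proj (h.trans h')) (proj_proj h h') t

/-- **localisation at `q` on `H²`, finite level**:
`H²(Gal(L/ℚ), Ind E_S(L)) → H²(Dec_q(L), (Q →₀ L_qˣ))`. -/
def locH2 : groupCohomology (indF h (sUnits L)) 2 →ₗ[ℤ] groupCohomology (semiLoc h q) 2 :=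
  (groupCohomology.map (L.decHom q) (locF h q) 2).hom

/-- **inflation on the local side**, `L ≤ L'`:
`H²(Dec_q(L), (Q →₀ L_qˣ)) → H²(Dec_q(L'), (Q →₀ L'_qˣ))`. -/
def inflLoc {L' : Level S} (h' : L ≤ L') :
    groupCohomology (semiLoc h q) 2 →ₗ[ℤ] groupCohomology (semiLoc (h.trans h') q) 2 :=
  (groupCohomology.map (Level.projDec h' q) (semiLocTr h q h') 2).hom

/-- **inflation on the global side**, `L ≤ L'`:
`H²(Gal(L/ℚ), Ind E_S(L)) → H²(Gal(L'/ℚ), Ind E_S(L'))`. -/
def inflE {L' : Level S} (h' : L ≤ L') :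
    groupCohomology (indF h (sUnits L)) 2 →ₗ[ℤ]
      groupCohomology (indF (h.trans h') (sUnits L')) 2 :=
  (groupCohomology.map (Level.proj h') (indFTr h h' (trS h')) 2).hom

/-- The level-constant local 2-cochain (values in `K.ind (rl q) K₀.U ℚ̄_qˣ`) defined by a 2-cochain
`τ` of the finite group `Dec_q(L)` with values in `semiLoc h q`. -/
def locM (τ : L.Dec q × L.Dec q → (semiLoc h q).V) :
    PT.Gl q × PT.Gl q → K.ind (PT.rl q) K₀.U (Tow.unitsQpbar q) :=
  fun x => (Finsupp.mapRange (L.locCoe q) (map_zero _)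
    (τ ((QuotientGroup.mk x.1 : L.Dec q), (QuotientGroup.mk x.2 : L.Dec q))) :
      (GQ ⧸ K₀.U) →₀ (Tow.unitsQpbar q).V)

/-- The level-constant local 1-cochain defined by a 1-cochain of `Dec_q(L)`. -/
def locM₁ (c : L.Dec q → (semiLoc h q).V) :
    PT.Gl q → K.ind (PT.rl q) K₀.U (Tow.unitsQpbar q) :=
  fun x => (Finsupp.mapRange (L.locCoe q) (map_zero _) (c (QuotientGroup.mk x : L.Dec q)) :
      (GQ ⧸ K₀.U) →₀ (Tow.unitsQpbar q).V)

end SemiLoc

end Fermat.Agent.S55.Inv.GO4

end
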