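import Fermat.Agent.S55.Inv.GO4.LDSpecH99

/-!
# S55 / `InvSpec` / GO4-LD, sub-leaf LD-d : `degLeaf : LD.DegLeaf p S`  (helper593)

From `K.AR.DecUnbounded S p`: for every level `K₀` and `q ∈ S` there is a level `L ≥ K₀` with
`p ∣ [K₀.V q : L.V q]`.  (Take `m` with `p ^ m ∤ |Dec_q(K₀)|`, `L ≥ K₀` with `p ^ m ∣ |Dec_q(L)|`,
and use `[K₀.V q : L.V q] · |Dec_q(K₀)| = |Dec_q(L)|`.)
-/

set_option autoImplicit false

namespace Fermat.Agent.S55.Inv.GO4.H593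

open Fermat.Agent.S55 Fermat.Agent.S55.Tow

/-- **LD-d.** -/
theorem degLeaf (p : ℕ) (S : Finset Nat.Primes) : LD.DegLeaf p S := by
  intro hp hDec K₀ q
  have hn : 0 < Nat.card (K₀.Dec q.1) := Nat.card_pos
  obtain ⟨L, h, hL⟩ := hDec K₀ (Nat.card (K₀.Dec q.1))
  refine ⟨L, h, ?_⟩
  have hle : L.V q.1 ≤ K₀.V q.1 := Level.V_anti h q.1
  have hmul : (L.V q.1).relIndex (K₀.V q.1) * Nat.card (K₀.Dec q.1) = Nat.card (L.Dec q.1) :=
    Subgroup.relIndex_mul_index hle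
  have hdvd : p ^ Nat.card (K₀.Dec q.1) ∣
      (L.V q.1).relIndex (K₀.V q.1) * Nat.card (K₀.Dec q.1) := by
    rw [hmul]
    exact hL q.1 q.2
  by_contra hnd
  have hcop : Nat.Coprime (p ^ Nat.card (K₀.Dec q.1)) ((L.V q.1).relIndex (K₀.V q.1)) :=
    Nat.Coprime.pow_left _ ((Nat.Prime.coprime_iff_not_dvd hp).2 hnd)
  have h2 : p ^ Nat.card (K₀.Dec q.1) ∣ Nat.card (K₀.Dec q.1) := hcop.dvd_of_dvd_mul_left hdvd
  have h3 : p ^ Nat.card (K₀.Dec q.1) ≤ Nat.card (K₀.Dec q.1) := Nat.le_of_dvd hn h2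
  exact absurd h3 (not_le.2 (Nat.lt_pow_self hp.one_lt))

end Fermat.Agent.S55.Inv.GO4.H593
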