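import Fermat.Agent.S55.Inv.GO4.LDQuotH593

/-!
# S55 / `InvSpec` / GO4-LD, sub-leaf LD-b : `orbitLeaf : LD.OrbitLeaf p S`  (helper593)

Orbit decomposition of the semi-local module `B = K.ind (rl q) K₀.U ℚ̄_qˣ = (G_ℚ ⧸ K₀.U →₀ ℚ̄_qˣ)`
under `G_q`: all stabilisers are `W = K₀.V q` (`K₀.U` is normal), so for every `y ∈ G_ℚ ⧸ K₀.U`
the orbit map `orb y : G_q ⧸ W → G_ℚ ⧸ K₀.U` is injective and equivariant, and

  `iotaO y : Ind_W ℚ̄_qˣ →+ B` (extension by zero),  `piO y : B →+ Ind_W ℚ̄_qˣ` (restriction)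

are equivariant with `∑_ω iotaO y_ω ∘ piO y_ω = id` (`ω` = orbits, `y_ω` representatives).
Hence `SingleOrbitSpec p → SemiLocalDescSpec p S`.
-/

set_option autoImplicit false
set_option linter.unusedSectionVars false
set_option linter.style.haveILetI false

open groupCohomology

noncomputable section

namespace Fermat.Agent.S55.Inv.GO4.H593

open Fermat.Agent.S55 Fermat.Agent.S55.Tow Fermat.Agent.S55.E1.Lim Fermat.Agent.S55.Inv.GO4
open Fermat.Agent.S55.PT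

/-! ## 1. Push-forward along equivariant additive maps -/

section Push

variable {G : Type} [Group G] {A B : Rep.{0, 0, 0} ℤ G} (φ : A.V →+ B.V)
  (hφ : ∀ (g : G) (a : A.V), φ (A.ρ g a) = B.ρ g (φ a))

include hφ in
lemma pushA_d₁₂ (x : G → A.V) :
    (d₁₂ B).hom (fun g => φ (x g)) = fun y => φ ((d₁₂ A).hom x y) := by
  funext y
  rw [d₁₂_hom_apply, d₁₂_hom_apply, map_add, map_sub, hφ]

include hφ in
lemma pushA_mem_cocycles₂ {f : G × G → A.V} (hf : f ∈ cocycles₂ A) :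
    (fun y => φ (f y)) ∈ cocycles₂ B := by
  rw [mem_cocycles₂_iff] at hf ⊢
  intro g h j
  show φ (f (g * h, j)) + φ (f (g, h)) = B.ρ g (φ (f (h, j))) + φ (f (g, h * j))
  rw [← hφ, ← map_add, ← map_add, hf g h j]

include hφ in
lemma pushA_mem_Z2 (L : LevelSys G) {f : G × G → A.V} (hf : f ∈ L.Z2 A) :
    (fun y => φ (f y)) ∈ L.Z2 B :=
  ⟨pushA_mem_cocycles₂ φ hφ hf.1, LevelSys.IsLC₂.comp hf.2 φ⟩

include hφ in
lemma pushA_mem_B2 (L : LevelSys G) {f : G × G → A.V} (hf : f ∈ L.B2 A) :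
    (fun y => φ (f y)) ∈ L.B2 B := by
  obtain ⟨x, hx, rfl⟩ := hf
  exact ⟨fun g => φ (x g), LevelSys.IsLC₁.comp hx φ, pushA_d₁₂ φ hφ x⟩

include hφ in
lemma pushA_isAt₁ (V : Subgroup G) {x : G → A.V} (hx : KC.IsAt₁ V A x) :
    KC.IsAt₁ V B (fun g => φ (x g)) := fun g s hs =>
  ⟨by show φ (x (g * s)) = φ (x g); rw [(hx g s hs).1],
   by show B.ρ s (φ (x g)) = φ (x g); rw [← hφ, (hx g s hs).2]⟩

include hφ in
lemma pushA_isAt₂ (V : Subgroup G) {f : G × G → A.V} (hf : KC.IsAt₂ V A f) :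
    KC.IsAt₂ V B (fun y => φ (f y)) := fun g h s t hs ht =>
  ⟨by show φ (f (g * s, h * t)) = φ (f (g, h)); rw [(hf g h s t hs ht).1],
   by show B.ρ s (φ (f (g, h))) = φ (f (g, h)); rw [← hφ, (hf g h s t hs ht).2]⟩

include hφ in
lemma pushA_mem_Z2At (V : Subgroup G) {f : G × G → A.V} (hf : f ∈ KC.Z2At V A) :
    (fun y => φ (f y)) ∈ KC.Z2At V B :=
  ⟨pushA_mem_cocycles₂ φ hφ hf.1, pushA_isAt₂ φ hφ V hf.2⟩

include hφ in
lemma pushA_mem_B2At (V : Subgroup G) {f : G × G → A.V} (hf : f ∈ KC.B2At V A) :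
    (fun y => φ (f y)) ∈ KC.B2At V B := by
  obtain ⟨x, hx, rfl⟩ := hf
  exact ⟨fun g => φ (x g), pushA_isAt₁ φ hφ V hx, pushA_d₁₂ φ hφ x⟩

end Push

/-! ## 2. The orbit maps -/

section Orbit

variable {S : Finset Nat.Primes} (K₀ : Level S) (q : Nat.Primes)

/-- the module `Ind_W ℚ̄_qˣ`, `W = K₀.V q` -/
abbrev ILoc : Rep.{0, 0, 0} ℤ (Gl q) := KC.indR (K₀.V q) (Tow.unitsQpbar q)

/-- the finitely supported function underlying an element of `ILoc K₀ q` -/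
def toI (G : (ILoc K₀ q).V) : (Gl q ⧸ K₀.V q) →₀ (Tow.unitsQpbar q).V := G

variable {K₀}

lemma mem_U_of_smul_eq (u : Tow.GQ) (y : Tow.GQ ⧸ K₀.U) (hu : u • y = y) : u ∈ K₀.U := by
  induction y using QuotientGroup.induction_on with
  | H g =>
    have h1 : (QuotientGroup.mk (u * g) : Tow.GQ ⧸ K₀.U) = QuotientGroup.mk g := hu
    rw [QuotientGroup.eq] at h1
    have h2 := K₀.normalU.conj_mem _ h1 g
    have h3 : g * ((u * g)⁻¹ * g) * g⁻¹ = u⁻¹ := by group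
    rw [h3] at h2
    simpa using K₀.U.inv_mem h2

/-- the orbit map `G_q ⧸ W → G_ℚ ⧸ K₀.U`, `sW ↦ rl s • y` -/
def orb (y : Tow.GQ ⧸ K₀.U) (c : Gl q ⧸ K₀.V q) : Tow.GQ ⧸ K₀.U :=
  Quotient.liftOn' c (fun s => rl q s • y) (fun a b hab => by
    have h1 : a⁻¹ * b ∈ K₀.V q := QuotientGroup.leftRel_apply.1 hab
    have h2 := rl_smul_eq q (le_refl K₀) (a⁻¹ * b) h1 y
    show rl q a • y = rl q b • y
    have h3 : rl q b = rl q a * rl q (a⁻¹ * b) := by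
      rw [← map_mul, mul_inv_cancel_left]
    rw [h3, mul_smul, h2])

lemma orb_mk (y : Tow.GQ ⧸ K₀.U) (s : Gl q) :
    orb q y (QuotientGroup.mk s : Gl q ⧸ K₀.V q) = rl q s • y := rfl

lemma orb_smul (y : Tow.GQ ⧸ K₀.U) (s : Gl q) (c : Gl q ⧸ K₀.V q) :
    orb q y (s • c) = rl q s • orb q y c := by
  induction c using QuotientGroup.induction_on with
  | H t =>
    show orb q y (QuotientGroup.mk (s * t) : Gl q ⧸ K₀.V q) = _
    rw [orb_mk, orb_mk, map_mul, mul_smul]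

lemma orb_injective (y : Tow.GQ ⧸ K₀.U) : Function.Injective (orb q y) := by
  intro c c' hcc
  induction c using QuotientGroup.induction_on with
  | H s =>
  induction c' using QuotientGroup.induction_on with
  | H t =>
    rw [orb_mk, orb_mk] at hcc
    rw [QuotientGroup.eq]
    show rl q (s⁻¹ * t) ∈ K₀.U
    apply mem_U_of_smul_eq _ y
    rw [map_mul, map_inv, mul_smul, ← hcc, inv_smul_smul]

/-- pointwise formula for the action on `BLoc K₀ q` -/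
lemma BLoc_ρ_apply (s : Gl q) (F : (BLoc K₀ q).V) (x : Tow.GQ ⧸ K₀.U) :
    toB q ((BLoc K₀ q).ρ s F) x = (Tow.unitsQpbar q).ρ s (toB q F ((rl q s)⁻¹ • x)) := by
  have hinj : Function.Injective (fun z : Tow.GQ ⧸ K₀.U => rl q s • z) :=
    MulAction.injective (rl q s)
  have hx : (fun z : Tow.GQ ⧸ K₀.U => rl q s • z) ((rl q s)⁻¹ • x) = x := smul_inv_smul _ _
  have h1 : toB q ((BLoc K₀ q).ρ s F) =
      Finsupp.mapDomain (fun z : Tow.GQ ⧸ K₀.U => rl q s • z)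
        (Finsupp.mapRange ((Tow.unitsQpbar q).ρ s) (map_zero _) (toB q F)) := rfl
  rw [h1]
  conv_lhs => rw [← hx]
  rw [Finsupp.mapDomain_apply hinj]
  rfl

/-- pointwise formula for the action on `ILoc K₀ q` -/
lemma ILoc_ρ_apply (s : Gl q) (G : (ILoc K₀ q).V) (c : Gl q ⧸ K₀.V q) :
    toI K₀ q ((ILoc K₀ q).ρ s G) c = (Tow.unitsQpbar q).ρ s (toI K₀ q G (s⁻¹ • c)) := by
  have hinj : Function.Injective (fun z : Gl q ⧸ K₀.V q => s • z) := MulAction.injective s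
  have hx : (fun z : Gl q ⧸ K₀.V q => s • z) (s⁻¹ • c) = c := smul_inv_smul _ _
  have h1 : toI K₀ q ((ILoc K₀ q).ρ s G) =
      Finsupp.mapDomain (fun z : Gl q ⧸ K₀.V q => s • z)
        (Finsupp.mapRange ((Tow.unitsQpbar q).ρ s) (map_zero _) (toI K₀ q G)) := rfl
  rw [h1]
  conv_lhs => rw [← hx]
  rw [Finsupp.mapDomain_apply hinj]
  rfl

/-- extension by zero along the orbit map -/
def iotaO (y : Tow.GQ ⧸ K₀.U) : (ILoc K₀ q).V →+ (BLoc K₀ q).V :=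
  (Finsupp.mapDomain.addMonoidHom (orb q y) :
    ((Gl q ⧸ K₀.V q) →₀ (Tow.unitsQpbar q).V) →+ ((Tow.GQ ⧸ K₀.U) →₀ (Tow.unitsQpbar q).V))

/-- restriction along the orbit map -/
def piO (y : Tow.GQ ⧸ K₀.U) : (BLoc K₀ q).V →+ (ILoc K₀ q).V :=
  (Finsupp.comapDomain.addMonoidHom (orb_injective q y) :
    ((Tow.GQ ⧸ K₀.U) →₀ (Tow.unitsQpbar q).V) →+ ((Gl q ⧸ K₀.V q) →₀ (Tow.unitsQpbar q).V))

lemma piO_apply (y : Tow.GQ ⧸ K₀.U) (F : (BLoc K₀ q).V) (c : Gl q ⧸ K₀.V q) :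
    toI K₀ q (piO q y F) c = toB q F (orb q y c) := rfl

lemma iotaO_apply_orb (y : Tow.GQ ⧸ K₀.U) (G : (ILoc K₀ q).V) (c : Gl q ⧸ K₀.V q) :
    toB q (iotaO q y G) (orb q y c) = toI K₀ q G c :=
  Finsupp.mapDomain_apply (orb_injective q y) _ _

lemma iotaO_apply_of_notMem (y : Tow.GQ ⧸ K₀.U) (G : (ILoc K₀ q).V) (x : Tow.GQ ⧸ K₀.U)
    (hx : x ∉ Set.range (orb q y)) : toB q (iotaO q y G) x = 0 :=
  Finsupp.mapDomain_of_notMem_range _ _ hx

lemma piO_ρ (y : Tow.GQ ⧸ K₀.U) (s : Gl q) (F : (BLoc K₀ q).V) :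
    piO q y ((BLoc K₀ q).ρ s F) = (ILoc K₀ q).ρ s (piO q y F) := by
  apply Finsupp.ext
  intro c
  show toI K₀ q (piO q y ((BLoc K₀ q).ρ s F)) c = toI K₀ q ((ILoc K₀ q).ρ s (piO q y F)) c
  rw [piO_apply, BLoc_ρ_apply, ILoc_ρ_apply, piO_apply, orb_smul, map_inv]

lemma iotaO_ρ (y : Tow.GQ ⧸ K₀.U) (s : Gl q) (G : (ILoc K₀ q).V) :
    iotaO q y ((ILoc K₀ q).ρ s G) = (BLoc K₀ q).ρ s (iotaO q y G) := by
  apply Finsupp.ext
  intro x
  show toB q (iotaO q y ((ILoc K₀ q).ρ s G)) x = toB q ((BLoc K₀ q).ρ s (iotaO q y G)) x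
  rw [BLoc_ρ_apply]
  by_cases hx : x ∈ Set.range (orb q y)
  · obtain ⟨c, rfl⟩ := hx
    rw [iotaO_apply_orb, ILoc_ρ_apply, ← map_inv, ← orb_smul, iotaO_apply_orb]
  · rw [iotaO_apply_of_notMem q y _ x hx, iotaO_apply_of_notMem q y G, map_zero]
    rintro ⟨c, hc⟩
    apply hx
    refine ⟨s • c, ?_⟩
    rw [orb_smul, hc, smul_inv_smul]

/-! ### Orbits -/

variable (K₀) in
/-- the orbit relation of `G_q` on `G_ℚ ⧸ K₀.U` -/
def orbSetoid : Setoid (Tow.GQ ⧸ K₀.U) where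
  r y x := ∃ s : Gl q, rl q s • y = x
  iseqv :=
    { refl := fun y => ⟨1, by rw [map_one, one_smul]⟩
      symm := fun {y x} ⟨s, hs⟩ => ⟨s⁻¹, by rw [← hs, map_inv, inv_smul_smul]⟩
      trans := fun {y x z} ⟨s, hs⟩ ⟨t, ht⟩ => ⟨t * s, by rw [map_mul, mul_smul, hs, ht]⟩ }

variable (K₀) in
/-- the set of orbits -/
abbrev Orb : Type := Quotient (orbSetoid K₀ q)

instance : Finite (Orb K₀ q) := Quotient.finite _

/-- the chosen representative of an orbit -/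
def rep (ω : Orb K₀ q) : Tow.GQ ⧸ K₀.U := Quotient.out ω

lemma mem_range_orb_rep_iff (ω : Orb K₀ q) (x : Tow.GQ ⧸ K₀.U) :
    x ∈ Set.range (orb q (rep q ω)) ↔ ω = Quotient.mk (orbSetoid K₀ q) x := by
  constructor
  · rintro ⟨c, rfl⟩
    induction c using QuotientGroup.induction_on with
    | H s =>
      rw [orb_mk]
      have h1 : Quotient.mk (orbSetoid K₀ q) (rep q ω) =
          Quotient.mk (orbSetoid K₀ q) (rl q s • rep q ω) := Quotient.sound ⟨s, rfl⟩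
      rw [← h1]
      exact (Quotient.out_eq ω).symm
  · intro hω
    have h1 : Quotient.mk (orbSetoid K₀ q) (rep q ω) = Quotient.mk (orbSetoid K₀ q) x := by
      rw [← hω]
      exact Quotient.out_eq ω
    obtain ⟨s, hs⟩ := Quotient.exact h1
    exact ⟨QuotientGroup.mk s, hs⟩

open Classical in
lemma iotaO_piO_apply (y : Tow.GQ ⧸ K₀.U) (F : (BLoc K₀ q).V) (x : Tow.GQ ⧸ K₀.U) :
    toB q (iotaO q y (piO q y F)) x = if x ∈ Set.range (orb q y) then toB q F x else 0 := by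
  split_ifs with hx
  · obtain ⟨c, rfl⟩ := hx
    rw [iotaO_apply_orb, piO_apply]
  · exact iotaO_apply_of_notMem q y _ x hx

/-- **the orbit decomposition**: `∑_ω ι_ω (π_ω F) = F`. -/
lemma sum_iotaO_piO [Fintype (Orb K₀ q)] (F : (BLoc K₀ q).V) :
    ∑ ω : Orb K₀ q, iotaO q (rep q ω) (piO q (rep q ω) F) = F := by
  classical
  apply Finsupp.ext
  intro x
  have h1 : (∑ ω : Orb K₀ q, iotaO q (rep q ω) (piO q (rep q ω) F) :
      (Tow.GQ ⧸ K₀.U) →₀ (Tow.unitsQpbar q).V) x =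
      ∑ ω : Orb K₀ q, toB q (iotaO q (rep q ω) (piO q (rep q ω) F)) x :=
    Finsupp.finsetSum_apply _ _ _
  refine h1.trans ?_
  show ∑ ω : Orb K₀ q, toB q (iotaO q (rep q ω) (piO q (rep q ω) F)) x = toB q F x
  have h2 : ∀ ω : Orb K₀ q, toB q (iotaO q (rep q ω) (piO q (rep q ω) F)) x =
      if ω = Quotient.mk (orbSetoid K₀ q) x then toB q F x else 0 := by
    intro ω
    rw [iotaO_piO_apply]
    exact if_congr (mem_range_orb_rep_iff q ω x) rfl rfl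
  rw [Finset.sum_congr rfl (fun ω _ => h2 ω),
    Finset.sum_ite_eq' Finset.univ (Quotient.mk (orbSetoid K₀ q) x) (fun _ => toB q F x),
    if_pos (Finset.mem_univ _)]

end Orbit

/-! ## 3. The leaf -/

/-- **LD-b.** -/
theorem orbitLeaf (p : ℕ) (S : Finset Nat.Primes) : LD.OrbitLeaf p S := by
  intro hSO K₀ L h q hdvd X hX hpX
  classical
  haveI : Fintype (Orb K₀ q.1) := Fintype.ofFinite _
  have hW : K₀.V q.1 ∈ (localLevels q.1).levels := levelV_mem K₀ q.1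
  have hN : L.V q.1 ∈ (localLevels q.1).levels := levelV_mem L q.1
  have hle : L.V q.1 ≤ K₀.V q.1 := Level.V_anti h q.1
  have key : ∀ ω : Orb K₀ q.1, LD.DescendsTo (localLevels q.1) (ILoc K₀ q.1) (L.V q.1) p
      (fun z => piO q.1 (rep q.1 ω) (X z)) := fun ω =>
    hSO q.1 (K₀.V q.1) (L.V q.1) hW (Level.normalV K₀ q.1) hN (Level.normalV L q.1) hle hdvd _
      (pushA_mem_Z2 (piO q.1 (rep q.1 ω)) (piO_ρ q.1 (rep q.1 ω)) _ hX)
      (by
        have h1 : p • (fun z => piO q.1 (rep q.1 ω) (X z)) =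
            fun z => piO q.1 (rep q.1 ω) ((p • X) z) := by
          funext z
          show p • piO q.1 (rep q.1 ω) (X z) = piO q.1 (rep q.1 ω) (p • X z)
          rw [map_nsmul]
        rw [h1]
        exact pushA_mem_B2 (piO q.1 (rep q.1 ω)) (piO_ρ q.1 (rep q.1 ω)) _ hpX)
  choose X' hX'Z hX'cob hX'diff using key
  refine ⟨∑ ω : Orb K₀ q.1, (fun z => iotaO q.1 (rep q.1 ω) (X' ω z)), ?_, ?_, ?_⟩
  · exact (KC.Z2At _ _).sum_mem (fun ω _ =>
      pushA_mem_Z2At (iotaO q.1 (rep q.1 ω)) (iotaO_ρ q.1 (rep q.1 ω)) _ (hX'Z ω))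
  · have hmem : p • ∑ ω : Orb K₀ q.1, (fun z => iotaO q.1 (rep q.1 ω) (X' ω z)) ∈
        KC.B2At (L.V q.1) (BLoc K₀ q.1) := by
      rw [Finset.smul_sum]
      refine (KC.B2At _ _).sum_mem (fun ω _ => ?_)
      have h1 : p • (fun z => iotaO q.1 (rep q.1 ω) (X' ω z)) =
          fun z => iotaO q.1 (rep q.1 ω) ((p • X' ω) z) := by
        funext z
        show p • iotaO q.1 (rep q.1 ω) (X' ω z) = iotaO q.1 (rep q.1 ω) (p • X' ω z)
        rw [map_nsmul]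
      rw [h1]
      exact pushA_mem_B2At (iotaO q.1 (rep q.1 ω)) (iotaO_ρ q.1 (rep q.1 ω)) _ (hX'cob ω)
    exact hmem
  · have hdec : X = ∑ ω : Orb K₀ q.1,
        (fun z => iotaO q.1 (rep q.1 ω) (piO q.1 (rep q.1 ω) (X z))) := by
      funext z
      rw [Finset.sum_apply]
      exact (sum_iotaO_piO q.1 (X z)).symm
    have hsub : X - ∑ ω : Orb K₀ q.1, (fun z => iotaO q.1 (rep q.1 ω) (X' ω z)) =
        ∑ ω : Orb K₀ q.1, (fun z => iotaO q.1 (rep q.1 ω)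
          (((fun z' => piO q.1 (rep q.1 ω) (X z')) - X' ω) z)) := by
      conv_lhs => rw [hdec]
      rw [← Finset.sum_sub_distrib]
      refine Finset.sum_congr rfl (fun ω _ => ?_)
      funext z
      show iotaO q.1 (rep q.1 ω) (piO q.1 (rep q.1 ω) (X z)) - iotaO q.1 (rep q.1 ω) (X' ω z) =
        iotaO q.1 (rep q.1 ω) (piO q.1 (rep q.1 ω) (X z) - X' ω z)
      rw [map_sub]
    rw [hsub]
    exact ((localLevels q.1).B2 _).sum_mem (fun ω _ =>
      pushA_mem_B2 (iotaO q.1 (rep q.1 ω)) (iotaO_ρ q.1 (rep q.1 ω)) _ (hX'diff ω))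

end Fermat.Agent.S55.Inv.GO4.H593

end
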