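import Fermat.Agent.S55.Inv.GO4.SUnit
import Fermat.Agent.S55.PT.Levels

/-!
# S55 / GO4 dictionary: the maps finite level → level-constant cochains (helper3)

* local: `coeM h q : (Q →₀ L_qˣ) →+ (Q →₀ ℚ̄_qˣ)`, `locM`, `locM₁`; equivariance, `locM ∘ d = d ∘ locM₁`,
  level-constancy, invariance under inflation;
* global: `coeE h : (Q →₀ E_S(L)) →+ (Q →₀ 𝔼)`, `infE`, `infE₁`; the same properties; cocycles;
* comparison: `indLocE ∘ infE ε ∘ rl² = locM (locF ∘ ε ∘ decHom²)`.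
-/

set_option autoImplicit false
set_option linter.unusedSectionVars false

noncomputable section

namespace Fermat.Agent.S55.Inv.GO4

open Fermat.Agent.S55 Fermat.Agent.S55.Tow Fermat.Agent.S55.E1.Lim groupCohomology
open Fermat.Agent.S55.PT

variable {S : Finset Nat.Primes} {K₀ L : Level S} (h : K₀ ≤ L) (q : Nat.Primes)

/-! ## 1. Local side -/

/-- the modules of the local side -/
abbrev BLoc (K₀ : Level S) (q : Nat.Primes) : Rep.{0} ℤ (Gl q) :=
  K.ind (rl q) K₀.U (Tow.unitsQpbar q)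

/-- coefficient map `(Q →₀ L_qˣ) → (Q →₀ ℚ̄_qˣ)` -/
def coeM : (semiLoc h q).V →+ (BLoc K₀ q).V :=
  (Finsupp.mapRange.addMonoidHom (L.locCoe q).toAddMonoidHom :
    (K₀.Gal →₀ (L.locUnits q).V) →+ ((Tow.GQ ⧸ K₀.U) →₀ (Tow.unitsQpbar q).V))

lemma coeM_single (x : K₀.Gal) (a : (L.locUnits q).V) :
    coeM h q (Finsupp.single x a : K₀.Gal →₀ (L.locUnits q).V) =
      (Finsupp.single x (L.locCoe q a) : (Tow.GQ ⧸ K₀.U) →₀ (Tow.unitsQpbar q).V) :=
  Finsupp.mapRange_single (hf := map_zero _)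

lemma locM_apply (τ : L.Dec q × L.Dec q → (semiLoc h q).V) (x : Gl q × Gl q) :
    locM h q τ x = coeM h q (τ ((QuotientGroup.mk x.1 : L.Dec q), (QuotientGroup.mk x.2 : L.Dec q))) :=
  rfl

lemma locM₁_apply (c : L.Dec q → (semiLoc h q).V) (x : Gl q) :
    locM₁ h q c x = coeM h q (c (QuotientGroup.mk x : L.Dec q)) := rfl

/-- `coeM` is equivariant along `G_q → Dec_q(L)`. -/
lemma coeM_ρ (σ : Gl q) (v : (semiLoc h q).V) :
    coeM h q ((semiLoc h q).ρ (QuotientGroup.mk σ : L.Dec q) v) =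
      (BLoc K₀ q).ρ σ (coeM h q v) := by
  have key : (coeM h q).comp
      ((semiLoc h q).ρ (QuotientGroup.mk σ : L.Dec q)).toAddMonoidHom =
      (((BLoc K₀ q).ρ σ).toAddMonoidHom).comp (coeM h q) := by
    refine Finsupp.addHom_ext fun x a => ?_
    show coeM h q ((semiLoc h q).ρ (QuotientGroup.mk σ : L.Dec q)
        (Finsupp.single x a : K₀.Gal →₀ (L.locUnits q).V)) =
      (BLoc K₀ q).ρ σ (coeM h q (Finsupp.single x a : K₀.Gal →₀ (L.locUnits q).V))
    rw [dInd_ρ_single, coeM_single, coeM_single]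
    show _ = K.indρ (rl q) K₀.U (Tow.unitsQpbar q) σ
      (Finsupp.single x (L.locCoe q a) : (Tow.GQ ⧸ K₀.U) →₀ (Tow.unitsQpbar q).V)
    rw [K.indρ_single]
    congr 1
  exact DFunLike.congr_fun key v

lemma locM_add (τ τ' : L.Dec q × L.Dec q → (semiLoc h q).V) :
    locM h q (τ + τ') = locM h q τ + locM h q τ' := by
  funext x
  show coeM h q (τ _ + τ' _) = _
  rw [map_add]
  rfl

lemma locM_sub (τ τ' : L.Dec q × L.Dec q → (semiLoc h q).V) :
    locM h q (τ - τ') = locM h q τ - locM h q τ' := by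
  funext x
  show coeM h q (τ _ - τ' _) = _
  rw [map_sub]
  rfl

lemma locM_nsmul (n : ℕ) (τ : L.Dec q × L.Dec q → (semiLoc h q).V) :
    locM h q (n • τ) = n • locM h q τ := by
  funext x
  show coeM h q (n • τ _) = _
  rw [map_nsmul]
  rfl

/-- `locM ∘ d = d ∘ locM₁`. -/
lemma locM_d (c : L.Dec q → (semiLoc h q).V) :
    locM h q ((d₁₂ (semiLoc h q)).hom c) = (d₁₂ (BLoc K₀ q)).hom (locM₁ h q c) := by
  funext x
  rw [locM_apply, d₁₂_hom_apply, d₁₂_hom_apply, map_add, map_sub, coeM_ρ]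
  rfl

lemma levelV_mem (L : Level S) (q : Nat.Primes) : L.V q ∈ (localLevels q).levels :=
  ⟨L.F, L.unram.1, rfl⟩

lemma levelU_mem (L : Level S) : L.U ∈ (globalLevels S).levels :=
  ⟨L.F, L.unram, rfl⟩

lemma mk_mul_of_mem_V (L : Level S) (q : Nat.Primes) (g s : Gl q) (hs : s ∈ L.V q) :
    (QuotientGroup.mk (g * s) : L.Dec q) = QuotientGroup.mk g := by
  rw [QuotientGroup.eq]
  simpa using (L.V q).inv_mem hs

lemma mk_mul_of_mem_U (L : Level S) (g s : Tow.GQ) (hs : s ∈ L.U) :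
    (QuotientGroup.mk (g * s) : L.Gal) = QuotientGroup.mk g := by
  rw [QuotientGroup.eq]
  simpa using (L.U).inv_mem hs

lemma locM₁_isLC (c : L.Dec q → (semiLoc h q).V) :
    locM₁ h q c ∈ (localLevels q).C1 (BLoc K₀ q) :=
  ⟨L.V q, levelV_mem L q, fun g s hs => by
    rw [locM₁_apply, locM₁_apply, mk_mul_of_mem_V L q g s hs]⟩

/-- `locM` maps coboundaries to level-constant coboundaries. -/
lemma locM_mem_B2 {τ : L.Dec q × L.Dec q → (semiLoc h q).V}
    (hτ : τ ∈ coboundaries₂ (semiLoc h q)) :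
    locM h q τ ∈ (localLevels q).B2 (BLoc K₀ q) := by
  obtain ⟨c, rfl⟩ := hτ
  exact ⟨locM₁ h q c, locM₁_isLC h q c, (locM_d h q c).symm⟩

/-- `locM` is invariant under inflation. -/
lemma locM_infl {L' : Level S} (h' : L ≤ L') (τ : L.Dec q × L.Dec q → (semiLoc h q).V) :
    locM (h.trans h') q (fun d : L'.Dec q × L'.Dec q =>
      (semiLocTr h q h').hom (τ (Level.projDec h' q d.1, Level.projDec h' q d.2))) =
    locM h q τ := by
  funext x
  rw [locM_apply, locM_apply]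
  refine Finsupp.ext fun y => ?_
  rfl

/-! ## 2. Global side -/

/-- the module of the global side -/
abbrev EGlob (K₀ : Level S) : Rep.{0} ℤ Tow.GQ := K.indG K₀.U (K.sUnits S)

/-- coefficient map `(Q →₀ E_S(L)) → (Q →₀ 𝔼)` -/
def coeE : (indF h (sUnits L)).V →+ (EGlob K₀).V :=
  (Finsupp.mapRange.addMonoidHom (inclE L) :
    (K₀.Gal →₀ (sUnits L).V) →+ ((Tow.GQ ⧸ K₀.U) →₀ (K.sUnits S).V))

lemma coeE_single (x : K₀.Gal) (e : (sUnits L).V) :
    coeE h (Finsupp.single x e : K₀.Gal →₀ (sUnits L).V) =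
      (Finsupp.single x (inclE L e) : (Tow.GQ ⧸ K₀.U) →₀ (K.sUnits S).V) :=
  Finsupp.mapRange_single (hf := map_zero _)

/-- inflation of a finite-level 2-cochain to `G_ℚ` -/
def infE (ε : L.Gal × L.Gal → (indF h (sUnits L)).V) : Tow.GQ × Tow.GQ → EGlob K₀ :=
  fun x => coeE h (ε ((QuotientGroup.mk x.1 : L.Gal), (QuotientGroup.mk x.2 : L.Gal)))

/-- inflation of a finite-level 1-cochain to `G_ℚ` -/
def infE₁ (γ : L.Gal → (indF h (sUnits L)).V) : Tow.GQ → EGlob K₀ :=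
  fun x => coeE h (γ (QuotientGroup.mk x : L.Gal))

lemma infE_apply (ε : L.Gal × L.Gal → (indF h (sUnits L)).V) (x : Tow.GQ × Tow.GQ) :
    infE h ε x = coeE h (ε ((QuotientGroup.mk x.1 : L.Gal), (QuotientGroup.mk x.2 : L.Gal))) := rfl

lemma infE₁_apply (γ : L.Gal → (indF h (sUnits L)).V) (x : Tow.GQ) :
    infE₁ h γ x = coeE h (γ (QuotientGroup.mk x : L.Gal)) := rfl

/-- `coeE` is equivariant along `G_ℚ → Gal(L/ℚ)`. -/
lemma coeE_ρ (σ : Tow.GQ) (v : (indF h (sUnits L)).V) :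
    coeE h ((indF h (sUnits L)).ρ (QuotientGroup.mk σ : L.Gal) v) =
      (EGlob K₀).ρ σ (coeE h v) := by
  have key : (coeE h).comp
      ((indF h (sUnits L)).ρ (QuotientGroup.mk σ : L.Gal)).toAddMonoidHom =
      (((EGlob K₀).ρ σ).toAddMonoidHom).comp (coeE h) := by
    refine Finsupp.addHom_ext fun x a => ?_
    show coeE h ((indF h (sUnits L)).ρ (QuotientGroup.mk σ : L.Gal)
        (Finsupp.single x a : K₀.Gal →₀ (sUnits L).V)) =
      (EGlob K₀).ρ σ (coeE h (Finsupp.single x a : K₀.Gal →₀ (sUnits L).V))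
    rw [dInd_ρ_single, coeE_single, coeE_single]
    show _ = K.indρ (MonoidHom.id Tow.GQ) K₀.U (K.sUnits S) σ
      (Finsupp.single x (inclE L a) : (Tow.GQ ⧸ K₀.U) →₀ (K.sUnits S).V)
    rw [K.indρ_single, inclE_ρ]
    congr 1
  exact DFunLike.congr_fun key v

lemma infE_nsmul (n : ℕ) (ε : L.Gal × L.Gal → (indF h (sUnits L)).V) :
    infE h (n • ε) = n • infE h ε := by
  funext x
  show coeE h (n • ε _) = _
  rw [map_nsmul]
  rfl

lemma infE_d (γ : L.Gal → (indF h (sUnits L)).V) :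
    infE h ((d₁₂ (indF h (sUnits L))).hom γ) = (d₁₂ (EGlob K₀)).hom (infE₁ h γ) := by
  funext x
  rw [infE_apply, d₁₂_hom_apply, d₁₂_hom_apply, map_add, map_sub, coeE_ρ]
  rfl

lemma infE₁_isLC (γ : L.Gal → (indF h (sUnits L)).V) :
    infE₁ h γ ∈ (globalLevels S).C1 (EGlob K₀) :=
  ⟨L.U, levelU_mem L, fun g s hs => by
    rw [infE₁_apply, infE₁_apply, mk_mul_of_mem_U L g s hs]⟩

lemma infE_isLC (ε : L.Gal × L.Gal → (indF h (sUnits L)).V) :
    infE h ε ∈ (globalLevels S).C2 (EGlob K₀) :=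
  ⟨L.U, levelU_mem L, fun g g' s s' hs hs' => by
    rw [infE_apply, infE_apply]
    show coeE h (ε (QuotientGroup.mk (g * s), QuotientGroup.mk (g' * s'))) = _
    rw [mk_mul_of_mem_U L g s hs, mk_mul_of_mem_U L g' s' hs']⟩

/-- `infE` maps cocycles to level-constant cocycles. -/
lemma infE_mem_Z2 {ε : L.Gal × L.Gal → (indF h (sUnits L)).V}
    (hε : ε ∈ cocycles₂ (indF h (sUnits L))) :
    infE h ε ∈ (globalLevels S).Z2 (EGlob K₀) := by
  refine ⟨?_, infE_isLC h ε⟩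
  rw [mem_cocycles₂_iff] at hε
  show infE h ε ∈ cocycles₂ (EGlob K₀)
  rw [mem_cocycles₂_iff]
  intro g g' g''
  have := hε (QuotientGroup.mk g) (QuotientGroup.mk g') (QuotientGroup.mk g'')
  rw [infE_apply, infE_apply, infE_apply, infE_apply, ← coeE_ρ, ← map_add, ← map_add]
  exact congrArg (coeE h) this

/-- `infE` maps coboundaries to level-constant coboundaries. -/
lemma infE_mem_B2 {ε : L.Gal × L.Gal → (indF h (sUnits L)).V}
    (hε : ε ∈ coboundaries₂ (indF h (sUnits L))) :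
    infE h ε ∈ (globalLevels S).B2 (EGlob K₀) := by
  obtain ⟨γ, rfl⟩ := hε
  exact ⟨infE₁ h γ, infE₁_isLC h γ, (infE_d h γ).symm⟩

/-! ## 3. Comparison -/

/-- localisation of `infE ε` = `locM` of the finite-level localisation of `ε`. -/
lemma indLocE_infE (ε : L.Gal × L.Gal → (indF h (sUnits L)).V) :
    (fun x : Gl q × Gl q => K.indLocE q S K₀.U (infE h ε (rl q x.1, rl q x.2))) =
      locM h q (fun d : L.Dec q × L.Dec q =>
        (locF h q).hom (ε (L.decHom q d.1, L.decHom q d.2))) := by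
  funext x
  rw [locM_apply]
  refine Finsupp.ext fun y => ?_
  rfl

end Fermat.Agent.S55.Inv.GO4

end
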