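import Fermat.Agent.S55.Inv.GO4.LDSpecH99
import Fermat.Agent.S55.Inv.GO4.LocM

/-!
# S55 / `InvSpec` / GO4-LD, sub-leaf LD-c : `quotSpec : LD.QuotSpec p S`  (helper593)

Descent to the quotient `Dec_q(L) = G_q ⧸ L.V q`: a 2-cocycle `X'` of `G_q` with values in
`K.ind (rl q) K₀.U ℚ̄_qˣ`, inflated from level `L.V q` (`KC.Z2At`), is `locM τ` for a 2-cocycle `τ`
of `Dec_q(L)` with values in `semiLoc h q = (Gal(K₀/ℚ) →₀ L_qˣ)`; if `p • X'` is a coboundary at
level `L.V q` then `p • τ` is a coboundary.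

`τ (d, d') := lift (X' (d.out, d'.out))`, `lift` = coefficientwise corestriction to the
`L.V q`-invariants (the elements of `L.V q` act trivially on `G_ℚ ⧸ K₀.U`).
-/

set_option autoImplicit false
set_option linter.unusedSectionVars false

open groupCohomology

noncomputable section

namespace Fermat.Agent.S55.Inv.GO4.H593

open Fermat.Agent.S55 Fermat.Agent.S55.Tow Fermat.Agent.S55.E1.Lim Fermat.Agent.S55.Inv.GO4
open Fermat.Agent.S55.PT

variable {S : Finset Nat.Primes} {K₀ L : Level S} (q : Nat.Primes)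

/-- the finitely supported function underlying an element of `BLoc K₀ q` -/
def toB (F : (BLoc K₀ q).V) : (Tow.GQ ⧸ K₀.U) →₀ (Tow.unitsQpbar q).V := F

/-- the elements of `L.V q` act trivially on `G_ℚ ⧸ K₀.U` -/
lemma rl_smul_eq (h : K₀ ≤ L) (s : Gl q) (hs : s ∈ L.V q) (x : Tow.GQ ⧸ K₀.U) :
    (rl q s) • x = x := by
  have hu : rl q s ∈ K₀.U := Level.U_anti h hs
  induction x using QuotientGroup.induction_on with
  | H g =>
    show (QuotientGroup.mk (rl q s * g) : Tow.GQ ⧸ K₀.U) = QuotientGroup.mk g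
    rw [QuotientGroup.eq]
    have h1 : (rl q s * g)⁻¹ * g = g⁻¹ * (rl q s)⁻¹ * g⁻¹⁻¹ := by group
    rw [h1]
    exact K₀.normalU.conj_mem _ (K₀.U.inv_mem hu) _

/-- coefficientwise formula for the action of `s ∈ L.V q` on `BLoc K₀ q` -/
lemma BLoc_ρ_apply_of_mem (h : K₀ ≤ L) (s : Gl q) (hs : s ∈ L.V q) (F : (BLoc K₀ q).V)
    (y : Tow.GQ ⧸ K₀.U) :
    toB q ((BLoc K₀ q).ρ s F) y = (Tow.unitsQpbar q).ρ s (toB q F y) := by
  have hid : (fun x : Tow.GQ ⧸ K₀.U => rl q s • x) = id := funext (rl_smul_eq q h s hs)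
  have h1 : toB q ((BLoc K₀ q).ρ s F) =
      Finsupp.mapDomain (fun x : Tow.GQ ⧸ K₀.U => rl q s • x)
        (Finsupp.mapRange ((Tow.unitsQpbar q).ρ s) (map_zero _) (toB q F)) := rfl
  rw [h1, hid, Finsupp.mapDomain_id]
  rfl

open Classical in
/-- corestriction of an `L.V q`-invariant element of `ℚ̄_qˣ` to `L_qˣ` (`0` otherwise) -/
def liftInv (L : Level S) (q : Nat.Primes) (a : (Tow.unitsQpbar q).V) : (L.locUnits q).V :=
  if ha : ∀ g ∈ L.V q, (Tow.unitsQpbar q).ρ g a = a then L.locMk q a ha else 0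

lemma locCoe_liftInv (a : (Tow.unitsQpbar q).V)
    (ha : ∀ g ∈ L.V q, (Tow.unitsQpbar q).ρ g a = a) : L.locCoe q (liftInv L q a) = a := by
  unfold liftInv
  rw [dif_pos ha]
  rfl

lemma liftInv_zero : liftInv L q 0 = 0 := by
  apply L.locCoe_injective q
  rw [locCoe_liftInv q 0 (fun g _ => map_zero _), map_zero]

/-- coefficientwise corestriction `(Q →₀ ℚ̄_qˣ) → (Q →₀ L_qˣ)` -/
def liftF (h : K₀ ≤ L) (F : (BLoc K₀ q).V) : (semiLoc h q).V :=
  (Finsupp.mapRange (liftInv L q) (liftInv_zero q) (toB q F) : K₀.Gal →₀ (L.locUnits q).V)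

lemma coeM_liftF (h : K₀ ≤ L) (F : (BLoc K₀ q).V)
    (hF : ∀ s ∈ L.V q, (BLoc K₀ q).ρ s F = F) : coeM h q (liftF q h F) = F := by
  apply Finsupp.ext
  intro y
  show L.locCoe q (liftInv L q (toB q F y)) = toB q F y
  apply locCoe_liftInv
  intro s hs
  rw [← BLoc_ρ_apply_of_mem q h s hs F y, hF s hs]

lemma coeM_injective (h : K₀ ≤ L) : Function.Injective (coeM h q) :=
  Finsupp.mapRange_injective _ (map_zero _) (L.locCoe_injective q)

/-- **LD-c.** -/
theorem quotSpec (p : ℕ) (S : Finset Nat.Primes) : LD.QuotSpec p S := by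
  intro K₀ L h q X' hX' hcob
  obtain ⟨hcoc, hat⟩ := hX'
  obtain ⟨x, hx, hdx⟩ := hcob
  -- representatives
  let r : L.Dec q.1 → Gl q.1 := fun d => Quotient.out d
  have hr : ∀ g : Gl q.1, ∃ s ∈ L.V q.1, r (QuotientGroup.mk g) = g * s := fun g => by
    obtain ⟨s, hs⟩ := QuotientGroup.mk_out_eq_mul (L.V q.1) g
    exact ⟨s.1, s.2, hs⟩
  let τ : L.Dec q.1 × L.Dec q.1 → (semiLoc h q.1).V :=
    fun d => liftF q.1 h (X' (r d.1, r d.2))
  let c : L.Dec q.1 → (semiLoc h q.1).V := fun d => liftF q.1 h (x (r d))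
  have hτ : ∀ g g' : Gl q.1,
      coeM h q.1 (τ ((QuotientGroup.mk g : L.Dec q.1), (QuotientGroup.mk g' : L.Dec q.1))) =
        X' (g, g') := by
    intro g g'
    obtain ⟨s, hs, e⟩ := hr g
    obtain ⟨s', hs', e'⟩ := hr g'
    show coeM h q.1 (liftF q.1 h (X' (r (QuotientGroup.mk g), r (QuotientGroup.mk g')))) = _
    rw [coeM_liftF q.1 h _ (fun t ht => (hat _ _ t t ht ht).2), e, e']
    exact (hat g g' s s' hs hs').1
  have hc : ∀ g : Gl q.1, coeM h q.1 (c (QuotientGroup.mk g : L.Dec q.1)) = x g := by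
    intro g
    obtain ⟨s, hs, e⟩ := hr g
    show coeM h q.1 (liftF q.1 h (x (r (QuotientGroup.mk g)))) = _
    rw [coeM_liftF q.1 h _ (fun t ht => (hx _ t ht).2), e]
    exact (hx g s hs).1
  have hloc : locM h q.1 τ = X' := funext fun y => hτ y.1 y.2
  refine ⟨τ, ?_, ?_, hloc⟩
  · rw [mem_cocycles₂_iff]
    intro d₁ d₂ d₃
    induction d₁ using QuotientGroup.induction_on with
    | H g₁ =>
    induction d₂ using QuotientGroup.induction_on with
    | H g₂ =>
    induction d₃ using QuotientGroup.induction_on with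
    | H g₃ =>
    apply coeM_injective q.1 h
    rw [map_add, map_add, coeM_ρ, ← QuotientGroup.mk_mul, ← QuotientGroup.mk_mul, hτ, hτ, hτ, hτ]
    exact (mem_cocycles₂_iff X').1 hcoc g₁ g₂ g₃
  · refine ⟨c, ?_⟩
    funext d
    obtain ⟨d₁, d₂⟩ := d
    induction d₁ using QuotientGroup.induction_on with
    | H g₁ =>
    induction d₂ using QuotientGroup.induction_on with
    | H g₂ =>
    apply coeM_injective q.1 h
    rw [d₁₂_hom_apply]
    show coeM h q.1 ((semiLoc h q.1).ρ (QuotientGroup.mk g₁ : L.Dec q.1)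
        (c (QuotientGroup.mk g₂)) - c ((QuotientGroup.mk g₁ : L.Dec q.1) * QuotientGroup.mk g₂) +
        c (QuotientGroup.mk g₁)) = coeM h q.1 (p • τ (QuotientGroup.mk g₁, QuotientGroup.mk g₂))
    rw [map_add, map_sub, coeM_ρ, ← QuotientGroup.mk_mul, hc, hc, hc, map_nsmul, hτ]
    have h2 := congrFun hdx (g₁, g₂)
    rw [d₁₂_hom_apply] at h2
    exact h2

end Fermat.Agent.S55.Inv.GO4.H593

end
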