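/-
S55 / `InvSpec` / GO4, leaf GO4-LD (`LocDescLeaf`, subtask 684): SUB-INTERFACE (helper99).
Blueprint: `coord/S55-INV-GO4.md` §2 (helper3).  Spec pattern, no `sorry`.

    LocDescLeaf p S  ⇐  SingleOrbitSpec p  (LD-a, pure KC: `indWCF`, `qInf`, cyclic groups)
                      + OrbitLeaf p S      (LD-b, orbit decomposition of `K.ind (rl q) K₀.U`)
                      + QuotSpec p S       (LD-c, descent of an `IsAt₂` cocycle to `Dec_q(L)`)
                      + DegLeaf p S        (LD-d, `p ∣ [K₀.V q : L.V q]` from `DecUnbounded`)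

proved here: `locDesc_of` (the assembly).
-/
import Fermat.Agent.S55.Inv.GO4.Spec
import Fermat.Agent.S55.KC.Defs

set_option autoImplicit false

noncomputable section

namespace Fermat.Agent.S55.Inv.GO4.LD

open groupCohomology Fermat.Agent.S55 Fermat.Agent.S55.PT Fermat.Agent.S55.Tow

/-- `X` is cohomologous (level-constant coboundary) to a 2-cocycle `X'` inflated from
`(G ⧸ N, B^N)` such that `p • X'` is a coboundary at level `N`. -/
def DescendsTo {G : Type} [Group G] (L : LevelSys G) (B : Rep.{0, 0, 0} ℤ G) (N : Subgroup G)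
    (p : ℕ) (X : G × G → B) : Prop :=
  ∃ X' : G × G → B, X' ∈ KC.Z2At N B ∧ KC.IsCobAt₂ N B (p • X') ∧ X - X' ∈ L.B2 B

variable (p : ℕ) (S : Finset Nat.Primes)

/-- **LD-a** (single orbit, pure KC).  `W` a normal local level, `B = Ind_W ℚ̄_qˣ`, `N ≤ W` a normal
local level with `p ∣ [W : N]`: every level-constant 2-cocycle of class killed by `p` descends to
level `N`. -/
def SingleOrbitSpec : Prop :=
  ∀ (q : Nat.Primes) (W N : Subgroup (Gl q)),
    W ∈ (localLevels q).levels → W.Normal → N ∈ (localLevels q).levels → N.Normal → N ≤ W →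
    p ∣ N.relIndex W →
    ∀ X ∈ (localLevels q).Z2 (KC.indR W (Tow.unitsQpbar q)),
      p • X ∈ (localLevels q).B2 (KC.indR W (Tow.unitsQpbar q)) →
      DescendsTo (localLevels q) (KC.indR W (Tow.unitsQpbar q)) N p X

/-- the statement of LD-b: descent for the semi-local module `K.ind (rl q) K₀.U ℚ̄_qˣ`. -/
def SemiLocalDescSpec : Prop :=
  ∀ (K₀ L : Level S) (_ : K₀ ≤ L) (q : S), p ∣ (L.V q.1).relIndex (K₀.V q.1) →
    ∀ X ∈ (localLevels q.1).Z2 (K.ind (rl q.1) K₀.U (Tow.unitsQpbar q.1)),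
      p • X ∈ (localLevels q.1).B2 (K.ind (rl q.1) K₀.U (Tow.unitsQpbar q.1)) →
      DescendsTo (localLevels q.1) (K.ind (rl q.1) K₀.U (Tow.unitsQpbar q.1)) (L.V q.1) p X

/-- **LD-b** (orbit decomposition). -/
def OrbitLeaf : Prop := SingleOrbitSpec p → SemiLocalDescSpec p S

/-- **LD-c** (descent to the quotient `Dec_q(L) = G_q ⧸ L.V q`). -/
def QuotSpec : Prop :=
  ∀ (K₀ L : Level S) (h : K₀ ≤ L) (q : S)
    (X' : Gl q.1 × Gl q.1 → K.ind (rl q.1) K₀.U (Tow.unitsQpbar q.1)),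
    X' ∈ KC.Z2At (L.V q.1) (K.ind (rl q.1) K₀.U (Tow.unitsQpbar q.1)) →
    KC.IsCobAt₂ (L.V q.1) (K.ind (rl q.1) K₀.U (Tow.unitsQpbar q.1)) (p • X') →
    ∃ τ : L.Dec q.1 × L.Dec q.1 → (semiLoc h q.1).V,
      τ ∈ cocycles₂ (semiLoc h q.1) ∧ p • τ ∈ coboundaries₂ (semiLoc h q.1) ∧
      locM h q.1 τ = X'

/-- the statement of LD-d. -/
def DegSpec : Prop :=
  ∀ (K₀ : Level S) (q : S), ∃ (L : Level S) (_ : K₀ ≤ L),
    p ∣ (L.V q.1).relIndex (K₀.V q.1)

/-- **LD-d** (local degree). -/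
def DegLeaf : Prop := p.Prime → K.AR.DecUnbounded S p → DegSpec p S

/-- **GO4-LD, assembly.** -/
theorem locDesc_of (ha : SingleOrbitSpec p) (hb : OrbitLeaf p S) (hc : QuotSpec p S)
    (hd : DegLeaf p S) : LocDescLeaf p S := by
  intro hp hDec K₀ q X hX hpX
  obtain ⟨L, h, hdvd⟩ := hd hp hDec K₀ q
  obtain ⟨X', hX', hcob, hdiff⟩ := hb ha K₀ L h q hdvd X hX hpX
  obtain ⟨τ, hτ, hpτ, hloc⟩ := hc K₀ L h q X' hX' hcob
  exact ⟨L, h, τ, hτ, hpτ, by rw [hloc]; exact hdiff⟩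

end Fermat.Agent.S55.Inv.GO4.LD

end
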