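import Fermat.Agent.S55.Inv.GO4.Defs

/-!
# S55 / GO4 dictionary: the `S`-unit dictionary `Tow.Level.IsSUnit ⇒ K.IsSUnit` (helper3)

`Tow.Level.IsSUnit` (`Spec/Tower2.lean`): unit at every valuation subring of `ℚ̄` over a prime
`ℓ ∉ S`.  `K.IsSUnit` (`K/Defs.lean`): unit at every valuation subring lying over no prime of `S`
(including those over no prime at all — but the only such valuation subring is `ℚ̄` itself).

* `isSUnit_of_forall_prime` : the dictionary;
* `inclE L : E_S(L) →+ 𝔼 = K.sUnits S`, `inclE_ρ` (equivariance), `locE_inclE`.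
-/

set_option autoImplicit false

noncomputable section

namespace Fermat.Agent.S55.Inv.GO4

open Fermat.Agent.S55 Fermat.Agent.S55.Tow Fermat.Agent.S55.E1.Lim Polynomial

/-- a valuation subring of `ℚ̄` over no prime number contains every natural number as a unit -/
lemma val_natCast_eq_one_of_no_prime (A : ValuationSubring K.Qbar)
    (hA : ∀ ℓ : ℕ, ℓ.Prime → ¬ A.LiesOverPrime ℓ) (n : ℕ) (hn : n ≠ 0) :
    A.valuation ((n : ℕ) : K.Qbar) = 1 := by
  induction n using Nat.recOnMul with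
  | zero => exact absurd rfl hn
  | one => simp
  | prime ℓ hℓ =>
    have h1 : A.valuation ((ℓ : ℕ) : K.Qbar) ≤ 1 :=
      (A.valuation_le_one_iff _).2 (natCast_mem A ℓ)
    have h2 : ¬ A.valuation ((ℓ : ℕ) : K.Qbar) < 1 := fun h =>
      hA ℓ hℓ ((A.mem_nonunits_iff).2 h)
    exact le_antisymm h1 (not_lt.1 h2)
  | mul a b ha hb =>
    have ha0 : a ≠ 0 := fun h => hn (by rw [h, zero_mul])
    have hb0 : b ≠ 0 := fun h => hn (by rw [h, mul_zero])
    rw [Nat.cast_mul, map_mul, ha ha0, hb hb0, one_mul]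

lemma rat_mem_of_no_prime (A : ValuationSubring K.Qbar)
    (hA : ∀ ℓ : ℕ, ℓ.Prime → ¬ A.LiesOverPrime ℓ) (r : ℚ) :
    algebraMap ℚ K.Qbar r ∈ A := by
  rw [← A.valuation_le_one_iff]
  have h1 : algebraMap ℚ K.Qbar r = ((r.num : ℤ) : K.Qbar) / ((r.den : ℕ) : K.Qbar) := by
    conv_lhs => rw [← Rat.num_div_den r]
    simp
  rw [h1, map_div₀, val_natCast_eq_one_of_no_prime A hA r.den r.den_ne_zero, div_one]
  exact (A.valuation_le_one_iff _).2 (intCast_mem A r.num)

/-- a valuation subring of `ℚ̄` lying over no prime number is everything -/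
lemma mem_of_no_prime (A : ValuationSubring K.Qbar)
    (hA : ∀ ℓ : ℕ, ℓ.Prime → ¬ A.LiesOverPrime ℓ) (x : K.Qbar) : x ∈ A := by
  haveI : Algebra.IsAlgebraic ℚ K.Qbar := AlgebraicClosure.isAlgebraic ℚ
  have hx : IsIntegral ℚ x := Algebra.IsIntegral.isIntegral x
  -- `A` is integrally closed in `ℚ̄` and contains `ℚ`
  obtain ⟨f, hfm, hfx⟩ := hx
  have hA' : IsIntegrallyClosed A := inferInstance
  have hint : IsIntegral A x := by
    refine ⟨f.map ((algebraMap ℚ K.Qbar).codRestrict A.toSubring (rat_mem_of_no_prime A hA)),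
      hfm.map _, ?_⟩
    rw [eval₂_map]
    have : (algebraMap (↥A) K.Qbar).comp
        ((algebraMap ℚ K.Qbar).codRestrict A.toSubring (rat_mem_of_no_prime A hA)) =
        algebraMap ℚ K.Qbar := by
      ext r
      rfl
    rw [this]
    exact hfx
  obtain ⟨y, hy⟩ := (IsIntegrallyClosed.isIntegral_iff (R := A) (K := K.Qbar)).1 hint
  rw [← hy]
  exact y.2

/-- **S-unit dictionary.**  An element of `ℚ̄ˣ` which is a unit at all valuation subrings over
primes `ℓ ∉ S` (the notion of `Spec/Tower2.lean`) is an `S`-unit in the sense of `K/Defs.lean`. -/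
lemma isSUnit_of_forall_prime (S : Finset Nat.Primes) (x : K.Qbarˣ)
    (hx : ∀ ℓ : Nat.Primes, ℓ ∉ S → ∀ A : ValuationSubring K.Qbar, A.LiesOverPrime (ℓ : ℕ) →
      (x : K.Qbar) ∈ A ∧ ((x⁻¹ : K.Qbarˣ) : K.Qbar) ∈ A) : K.IsSUnit S x := by
  intro A hA
  by_cases h : ∃ ℓ : ℕ, ℓ.Prime ∧ A.LiesOverPrime ℓ
  · obtain ⟨ℓ, hℓ, hAℓ⟩ := h
    exact hx ⟨ℓ, hℓ⟩ (fun hmem => hA ⟨ℓ, hℓ⟩ hmem hAℓ) A hAℓ
  · have h' : ∀ ℓ : ℕ, ℓ.Prime → ¬ A.LiesOverPrime ℓ := fun ℓ hℓ hAℓ => h ⟨ℓ, hℓ, hAℓ⟩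
    exact ⟨mem_of_no_prime A h' _, mem_of_no_prime A h' _⟩

variable {S : Finset Nat.Primes}

/-- `E_S(L) → 𝔼`: the underlying `S`-unit of `ℚ̄`. -/
def inclE (L : Level S) : (sUnits L).V →+ (K.sUnits S).V where
  toFun e := ⟨L.unitsCoe ((sIncl L).hom e),
    isSUnit_of_forall_prime S _ (isSUnit_of_mem L (sIncl_mem L e))⟩
  map_zero' := by
    apply Subtype.ext
    show L.unitsCoe ((sIncl L).hom 0) = 0
    rw [map_zero, map_zero]
  map_add' x y := by
    apply Subtype.ext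
    show L.unitsCoe ((sIncl L).hom (x + y)) =
      L.unitsCoe ((sIncl L).hom x) + L.unitsCoe ((sIncl L).hom y)
    rw [map_add, map_add]

lemma sUnitsIncl_inclE (L : Level S) (e : (sUnits L).V) :
    K.sUnitsIncl S (inclE L e) = L.unitsCoe ((sIncl L).hom e) := rfl

/-- `inclE` is equivariant along `G_ℚ → Gal(L/ℚ)`. -/
lemma inclE_ρ (L : Level S) (σ : GQ) (e : (sUnits L).V) :
    inclE L ((sUnits L).ρ (QuotientGroup.mk σ : L.Gal) e) = (K.sUnits S).ρ σ (inclE L e) := by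
  apply Subtype.ext
  show L.unitsCoe ((sIncl L).hom ((sUnits L).ρ (QuotientGroup.mk σ : L.Gal) e)) =
    unitsQbar.ρ σ (L.unitsCoe ((sIncl L).hom e))
  rw [Rep.hom_comm_apply (sIncl L)]
  rfl

/-- `inclE` is compatible with the transition maps. -/
lemma inclE_trS {L L' : Level S} (h : L ≤ L') (e : (sUnits L).V) :
    inclE L' ((trS h).hom e) = inclE L e := by
  apply Subtype.ext
  show L'.unitsCoe ((sIncl L').hom ((trS h).hom e)) = L.unitsCoe ((sIncl L).hom e)
  rw [sIncl_trS]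
  rfl

/-- localisation: `locE ∘ inclE = locCoe ∘ embFun ∘ sIncl`. -/
lemma locE_inclE (L : Level S) (q : Nat.Primes) (e : (sUnits L).V) :
    K.locE q S (inclE L e) = L.locCoe q (L.embFun q ((sIncl L).hom e)) := rfl

end Fermat.Agent.S55.Inv.GO4

end
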