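import Fermat.Agent.S55.Inv.GO4.Defs
import Fermat.Agent.S55.H173.ShapiroInj

/-!
# S55 / `InvSpec` / GO4-SHAP, generic part (helper593)

Finite Shapiro for the diagonal modules `dInd φ A = (Q →₀ A)` of `Inv/GO4/Defs.lean`:

* `recogInj` : Shapiro's lemma in recognition form along an INJECTIVE homomorphism `ψ : D →* G`
  (from `H173.shapiroHom_bijective`);
* `dAct_apply` : `(g • b) x = g • b (φ(g)⁻¹ x)`;
* `ev1Q φ H hH A : Res_H (dInd φ A) ⟶ Res_H A` (coefficient at `1 ∈ Q`, `φ` trivial on `H`) and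
  `ev1Q_bijective` : `Hⁿ(Γ, dInd φ A) → Hⁿ(H, A)` is bijective if `H = ker φ`, `φ` surjective,
  `Q` finite;
* `evC φ ψ B : Res_ψ (dInd φ (Coind_ψ B)) ⟶ dInd (φ ∘ ψ) B` (coefficientwise evaluation at `1 ∈ Γ`)
  and `evC_bijective` : `Hⁿ(Γ, dInd φ (Coind_ψ B)) → Hⁿ(D, dInd (φ ∘ ψ) B)` is bijective if `ψ` is
  injective and `Q` finite.
-/

set_option autoImplicit false
set_option linter.unusedSectionVars false
set_option linter.style.haveILetI false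

open CategoryTheory groupCohomology

noncomputable section

namespace Fermat.Agent.S55.Inv.GO4.H593

open Fermat.Agent.S55 Fermat.Agent.S55.Inv.GO4

section Recog

variable {k G D : Type} [CommRing k] [Group G] [Group D]

/-- **Shapiro, recognition form, along an injective homomorphism.** -/
theorem recogInj (ψ : D →* G) (hψ : Function.Injective ψ) (A : Rep.{0} k D) (B : Rep.{0} k G)
    (π : Rep.res ψ B ⟶ A)
    (hπ : ∀ f : G → A.V, (∀ (d : D) (g : G), f (ψ d * g) = A.ρ d (f g)) →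
      ∃! b : B.V, ∀ g : G, π.hom (B.ρ g b) = f g) (n : ℕ) :
    Function.Bijective (groupCohomology.map ψ π n).hom := by
  let Φ : B ⟶ Rep.coind ψ A := Rep.resCoindToHom ψ B A π
  have hΦ_apply : ∀ (b : B.V) (g : G), (Φ.hom b).1 g = π.hom (B.ρ g b) := fun b g => rfl
  have hinj : Function.Injective Φ.hom := by
    intro b b' hbb'
    obtain ⟨b₀, -, huniq⟩ := hπ (Φ.hom b).1 (fun s g => (Φ.hom b).2 s g)
    have h1 : b = b₀ := huniq b (fun g => rfl)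
    have h2 : b' = b₀ := huniq b' (fun g => by rw [hbb']; rfl)
    rw [h1, h2]
  have hsurj : Function.Surjective Φ.hom := by
    intro f
    obtain ⟨b₀, hb₀, -⟩ := hπ f.1 (fun s g => f.2 s g)
    refine ⟨b₀, ?_⟩
    apply Subtype.ext
    funext g
    exact hb₀ g
  haveI : Mono Φ := (Rep.mono_iff_injective Φ).mpr hinj
  haveI : Epi Φ := (Rep.epi_iff_surjective Φ).mpr hsurj
  haveI : IsIso Φ := isIso_of_mono_of_epi Φ
  haveI : IsIso (groupCohomology.map (MonoidHom.id G) Φ n) :=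
    (inferInstance : IsIso ((groupCohomology.functor k G n).map Φ))
  have hcomp : groupCohomology.map ψ π n =
      groupCohomology.map (MonoidHom.id G) Φ n ≫ H173.shapiroHom ψ A n := by
    have h1 := groupCohomology.map_comp (MonoidHom.id G) ψ Φ (H173.ev1Hom ψ A) n
    rw [← h1]
    apply groupCohomology.map_congr rfl
    ext b
    change π.hom b = π.hom (B.ρ 1 b)
    rw [map_one]
    rfl
  rw [hcomp]
  have hb1 : Function.Bijective (groupCohomology.map (MonoidHom.id G) Φ n).hom :=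
    ConcreteCategory.bijective_of_isIso _
  have hb2 := H173.shapiroHom_bijective hψ n A
  have : ((groupCohomology.map (MonoidHom.id G) Φ n ≫ H173.shapiroHom ψ A n).hom : _ → _) =
      (H173.shapiroHom ψ A n).hom ∘ (groupCohomology.map (MonoidHom.id G) Φ n).hom := by
    funext x; rfl
  rw [this]
  exact hb2.comp hb1

end Recog


section DInd

variable {k : Type} [CommRing k] {Γ Q : Type} [Group Γ] [Group Q]

/-- `(g • b) x = g • b (φ(g)⁻¹ x)`. -/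
lemma dAct_apply (φ : Γ →* Q) (A : Rep.{0, 0, 0} k Γ) (g : Γ) (b : Q →₀ A) (x : Q) :
    dAct φ A g b x = A.ρ g (b ((φ g)⁻¹ * x)) := by
  have hinj : Function.Injective (fun y : Q => φ g * y) := mul_right_injective _
  have hx : (fun y : Q => φ g * y) ((φ g)⁻¹ * x) = x := by
    show φ g * ((φ g)⁻¹ * x) = x
    rw [mul_inv_cancel_left]
  have h1 : dAct φ A g b =
      Finsupp.mapDomain (fun y : Q => φ g * y) (Finsupp.mapRange (A.ρ g) (map_zero _) b) := rfl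
  rw [h1]
  conv_lhs => rw [← hx]
  rw [Finsupp.mapDomain_apply hinj]
  rfl

/-- the finitely supported function underlying an element of `dInd φ A` -/
def toFs (φ : Γ →* Q) (A : Rep.{0, 0, 0} k Γ) (b : (dInd φ A).V) : Q →₀ A.V := b

/-- an element of `dInd φ A` from a finitely supported function -/
def ofFs (φ : Γ →* Q) (A : Rep.{0, 0, 0} k Γ) (b : Q →₀ A.V) : (dInd φ A).V := b

@[simp] lemma toFs_ofFs (φ : Γ →* Q) (A : Rep.{0, 0, 0} k Γ) (b : Q →₀ A.V) :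
    toFs φ A (ofFs φ A b) = b := rfl

lemma toFs_injective (φ : Γ →* Q) (A : Rep.{0, 0, 0} k Γ) :
    Function.Injective (toFs φ A) := fun _ _ h => h

lemma dInd_ext {φ : Γ →* Q} {A : Rep.{0, 0, 0} k Γ} {b b' : (dInd φ A).V}
    (h : ∀ x, toFs φ A b x = toFs φ A b' x) : b = b' :=
  Finsupp.ext h

lemma toFs_ρ (φ : Γ →* Q) (A : Rep.{0, 0, 0} k Γ) (g : Γ) (b : (dInd φ A).V) (x : Q) :
    toFs φ A ((dInd φ A).ρ g b) x = A.ρ g (toFs φ A b ((φ g)⁻¹ * x)) :=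
  dAct_apply φ A g b x

lemma toFs_dIndMap (φ : Γ →* Q) {A B : Rep.{0, 0, 0} k Γ} (f : A ⟶ B) (b : (dInd φ A).V)
    (x : Q) : toFs φ B ((dIndMap φ f).hom b) x = f.hom (toFs φ A b x) := rfl

lemma toFs_dIndTr {Γ' : Type} [Group Γ'] (φ : Γ →* Q) (π : Γ' →* Γ) (φ' : Γ' →* Q)
    (hφ : ∀ g, φ (π g) = φ' g) {A : Rep.{0, 0, 0} k Γ}
    {A' : Rep.{0, 0, 0} k Γ'} (t : Rep.res π A ⟶ A') (b : (dInd φ A).V) (x : Q) :
    toFs φ' A' ((dIndTr φ π φ' hφ t).hom b) x = t.hom (toFs φ A b x) := rfl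

lemma rho_inv_self (A : Rep.{0, 0, 0} k Γ) (g : Γ) (a : A.V) : A.ρ g⁻¹ (A.ρ g a) = a := by
  rw [← Module.End.mul_apply, ← map_mul, inv_mul_cancel, map_one]
  rfl

lemma rho_self_inv (A : Rep.{0, 0, 0} k Γ) (g : Γ) (a : A.V) : A.ρ g (A.ρ g⁻¹ a) = a := by
  rw [← Module.End.mul_apply, ← map_mul, mul_inv_cancel, map_one]
  rfl

/-! ### `α` : coefficient at `1 ∈ Q` -/

/-- coefficient at `1 ∈ Q`: `Res_H (dInd φ A) ⟶ Res_H A`, for `φ` trivial on `H`. -/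
def ev1Q (φ : Γ →* Q) (H : Subgroup Γ) (hH : ∀ g ∈ H, φ g = 1) (A : Rep.{0, 0, 0} k Γ) :
    Rep.res H.subtype (dInd φ A) ⟶ Rep.res H.subtype A :=
  Rep.ofHom ⟨(Finsupp.lapply (1 : Q) : (Q →₀ A) →ₗ[k] A), fun s => by
    refine LinearMap.ext fun b => ?_
    show (dAct φ A (s : Γ) (toFs φ A b)) 1 = A.ρ (s : Γ) (toFs φ A b 1)
    rw [dAct_apply, hH s s.2, inv_one, one_mul]⟩

lemma ev1Q_apply (φ : Γ →* Q) (H : Subgroup Γ) (hH : ∀ g ∈ H, φ g = 1) (A : Rep.{0, 0, 0} k Γ)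
    (b : (dInd φ A).V) : (ev1Q φ H hH A).hom b = toFs φ A b 1 := rfl

lemma ev1Q_ρ (φ : Γ →* Q) (H : Subgroup Γ) (hH : ∀ g ∈ H, φ g = 1) (A : Rep.{0, 0, 0} k Γ)
    (b : (dInd φ A).V) (g : Γ) :
    (ev1Q φ H hH A).hom ((dInd φ A).ρ g b) = A.ρ g (toFs φ A b (φ g)⁻¹) := by
  rw [ev1Q_apply, toFs_ρ, mul_one]

lemma ev1Q_recog [Finite Q] (φ : Γ →* Q) (hφ : Function.Surjective φ) (H : Subgroup Γ)
    (hH : ∀ g, g ∈ H ↔ φ g = 1) (A : Rep.{0, 0, 0} k Γ)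
    (f : Γ → A.V) (hf : ∀ (s : H) (g : Γ), f ((s : Γ) * g) = A.ρ (s : Γ) (f g)) :
    ∃! b : (dInd φ A).V, ∀ g : Γ,
      (ev1Q φ H (fun g hg => (hH g).1 hg) A).hom ((dInd φ A).ρ g b) = f g := by
  classical
  have hσ : ∀ x : Q, φ (Function.surjInv hφ x) = x := Function.surjInv_eq hφ
  set σ : Q → Γ := Function.surjInv hφ with hσdef
  -- the key computation
  have key : ∀ (g τ : Γ), φ τ = φ g → A.ρ τ⁻¹ (f τ) = A.ρ g⁻¹ (f g) := by
    intro g τ hτ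
    have hs : τ * g⁻¹ ∈ H := by
      rw [hH, map_mul, map_inv, hτ, mul_inv_cancel]
    have h1 := hf ⟨τ * g⁻¹, hs⟩ g
    have h2 : (τ * g⁻¹) * g = τ := by rw [inv_mul_cancel_right]
    change f ((τ * g⁻¹) * g) = A.ρ (τ * g⁻¹) (f g) at h1
    rw [h2] at h1
    rw [h1, ← Module.End.mul_apply, ← map_mul, inv_mul_cancel_left]
  let b₀ : (dInd φ A).V := ofFs φ A
    (Finsupp.equivFunOnFinite.symm (fun x => A.ρ (σ x⁻¹)⁻¹ (f (σ x⁻¹))))
  have hb₀ : ∀ x, toFs φ A b₀ x = A.ρ (σ x⁻¹)⁻¹ (f (σ x⁻¹)) := fun x => rfl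
  refine ⟨b₀, ?_, ?_⟩
  · intro g
    show (ev1Q φ H (fun g hg => (hH g).1 hg) A).hom ((dInd φ A).ρ g b₀) = f g
    rw [ev1Q_ρ, hb₀, inv_inv, key g (σ (φ g)) (hσ _), rho_self_inv]
  · intro b hb
    have hb' : ∀ g, A.ρ g (toFs φ A b (φ g)⁻¹) = f g := fun g =>
      (ev1Q_ρ φ H _ A b g).symm.trans (hb g)
    apply dInd_ext
    intro x
    rw [hb₀]
    have h1 := hb' (σ x⁻¹)
    rw [hσ, inv_inv] at h1
    rw [← h1, rho_inv_self]

/-- **Shapiro for `dInd`, kernel form**: `Hⁿ(Γ, (Q →₀ A)) → Hⁿ(ker φ, A)` is bijective. -/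
theorem ev1Q_bijective [Finite Q] (φ : Γ →* Q) (hφ : Function.Surjective φ) (H : Subgroup Γ)
    (hH : ∀ g, g ∈ H ↔ φ g = 1) (A : Rep.{0, 0, 0} k Γ) (n : ℕ) :
    Function.Bijective
      (groupCohomology.map H.subtype (ev1Q φ H (fun g hg => (hH g).1 hg) A) n).hom :=
  recogInj H.subtype H.subtype_injective (Rep.res H.subtype A) (dInd φ A)
    (ev1Q φ H (fun g hg => (hH g).1 hg) A)
    (fun f hf => ev1Q_recog φ hφ H hH A f hf) n

/-! ### `β` : coefficientwise evaluation at `1 ∈ Γ` on `(Q →₀ Coind_ψ B)` -/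

variable {D : Type} [Group D]

/-- coefficientwise evaluation at `1 ∈ Γ`: `Res_ψ (dInd φ (Coind_ψ B)) ⟶ dInd (φ ∘ ψ) B`. -/
def evC (φ : Γ →* Q) (ψ : D →* Γ) (B : Rep.{0, 0, 0} k D) :
    Rep.res ψ (dInd φ (Rep.coind ψ B)) ⟶ dInd (φ.comp ψ) B :=
  dIndTr φ ψ (φ.comp ψ) (fun _ => rfl) (H173.ev1Hom ψ B)

lemma evC_apply (φ : Γ →* Q) (ψ : D →* Γ) (B : Rep.{0, 0, 0} k D)
    (b : (dInd φ (Rep.coind ψ B)).V) (x : Q) :
    toFs (φ.comp ψ) B ((evC φ ψ B).hom b) x = (toFs φ (Rep.coind ψ B) b x).1 1 := rfl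

lemma evC_ρ (φ : Γ →* Q) (ψ : D →* Γ) (B : Rep.{0, 0, 0} k D)
    (b : (dInd φ (Rep.coind ψ B)).V) (g : Γ) (x : Q) :
    toFs (φ.comp ψ) B ((evC φ ψ B).hom ((dInd φ (Rep.coind ψ B)).ρ g b)) x =
      (toFs φ (Rep.coind ψ B) b ((φ g)⁻¹ * x)).1 g := by
  rw [evC_apply, toFs_ρ]
  show (toFs φ (Rep.coind ψ B) b ((φ g)⁻¹ * x)).1 (1 * g) = _
  rw [one_mul]

lemma evC_recog [Finite Q] (φ : Γ →* Q) (ψ : D →* Γ) (B : Rep.{0, 0, 0} k D)
    (f : Γ → (dInd (φ.comp ψ) B).V)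
    (hf : ∀ (d : D) (g : Γ), f (ψ d * g) = (dInd (φ.comp ψ) B).ρ d (f g)) :
    ∃! b : (dInd φ (Rep.coind ψ B)).V, ∀ g : Γ,
      (evC φ ψ B).hom ((dInd φ (Rep.coind ψ B)).ρ g b) = f g := by
  classical
  let F : Q → (Rep.coind ψ B).V := fun y =>
    ⟨fun g => toFs (φ.comp ψ) B (f g) (φ g * y), fun d g => by
      show toFs (φ.comp ψ) B (f (ψ d * g)) (φ (ψ d * g) * y) =
        B.ρ d (toFs (φ.comp ψ) B (f g) (φ g * y))
      rw [hf d g, toFs_ρ]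
      congr 2
      show (φ (ψ d))⁻¹ * (φ (ψ d * g) * y) = φ g * y
      rw [map_mul, mul_assoc, inv_mul_cancel_left]⟩
  let b₀ : (dInd φ (Rep.coind ψ B)).V :=
    ofFs φ (Rep.coind ψ B) (Finsupp.equivFunOnFinite.symm F)
  have hb₀ : ∀ y g, (toFs φ (Rep.coind ψ B) b₀ y).1 g = toFs (φ.comp ψ) B (f g) (φ g * y) :=
    fun y g => rfl
  refine ⟨b₀, ?_, ?_⟩
  · intro g
    apply dInd_ext
    intro x
    rw [evC_ρ, hb₀, mul_inv_cancel_left]
  · intro b hb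
    apply dInd_ext
    intro y
    apply Subtype.ext
    funext g
    show (toFs φ (Rep.coind ψ B) b y).1 g = (toFs φ (Rep.coind ψ B) b₀ y).1 g
    rw [hb₀, ← hb g, evC_ρ, inv_mul_cancel_left]

/-- **Shapiro for `dInd`, coinduced form**:
`Hⁿ(Γ, (Q →₀ Coind_ψ B)) → Hⁿ(D, (Q →₀ B))` is bijective. -/
theorem evC_bijective [Finite Q] (φ : Γ →* Q) (ψ : D →* Γ) (hψ : Function.Injective ψ)
    (B : Rep.{0, 0, 0} k D) (n : ℕ) :
    Function.Bijective (groupCohomology.map ψ (evC φ ψ B) n).hom :=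
  recogInj ψ hψ (dInd (φ.comp ψ) B) (dInd φ (Rep.coind ψ B)) (evC φ ψ B)
    (fun f hf => evC_recog φ ψ B f hf) n

end DInd

end Fermat.Agent.S55.Inv.GO4.H593

end
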