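import Fermat.Agent.S55.Inv.GO4.Spec
import Fermat.Agent.S55.K.AR.LibH998
import Fermat.Agent.S55.K.AR.E2H79
import Fermat.Agent.S55.H173.TowerShapiro

/-!
# S55 / `InvSpec` / GO4, leaf **GO4-SHAP** (helper174)

`shapLeaf p S : ShapLeaf p S`, i.e. `K.AR.CokerTower S p → FLCokerSpec p S`.

Finite groups and Mathlib `groupCohomology` only.  Two Shapiro maps
* `alpha` : `Hⁿ(Gal(L/ℚ), Ind X) → Hⁿ(H', X)`, restriction to `H' = ker(proj h)` and coefficient at `1`;
* `beta`  : `Hⁿ(Gal(L/ℚ), Ind J_q) → Hⁿ(Dec_q(L), semiLoc)`, restriction to `Dec_q` and evaluation at `1`;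
both bijective by the recognition form of Shapiro's lemma along an injective homomorphism
(`recog_bijective`, from `H173.shapiroHom_bijective`), and natural for coefficient maps and
inflation (`K.AR.H998.map_map_eq`).
-/

set_option autoImplicit false

open CategoryTheory groupCohomology

namespace Fermat.Agent.S55.Inv.GO4.H174

open Fermat.Agent.S55 Fermat.Agent.S55.Tow Fermat.Agent.S55.E1.Lim Fermat.Agent.S55.K.AR

noncomputable section

/-! ## 1. Shapiro, recognition form along an injective homomorphism -/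

section Recog

variable {k G D : Type} [CommRing k] [Group G] [Group D]

/-- **Shapiro, recognition form** along an injective `φ : D →* G`: if `b ↦ (g ↦ π (g • b))` is a
bijection from `B` onto `Coind_φ A`, then `Hⁿ(G, B) → Hⁿ(D, A)` (restriction along `φ`, then `π`)
is bijective. -/
theorem recog_bijective (φ : D →* G) (hφ : Function.Injective φ) (A : Rep.{0} k D)
    (B : Rep.{0} k G) (π : Rep.res φ B ⟶ A)
    (hπ : ∀ f : G → A.V, (∀ (d : D) (g : G), f (φ d * g) = A.ρ d (f g)) →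
      ∃! b : B.V, ∀ g : G, π.hom (B.ρ g b) = f g) (n : ℕ) :
    Function.Bijective (groupCohomology.map φ π n).hom := by
  let Φ : B ⟶ Rep.coind φ A := Rep.resCoindToHom φ B A π
  have hinj : Function.Injective Φ.hom := by
    intro b b' hbb'
    obtain ⟨b₀, -, huniq⟩ := hπ (Φ.hom b).1 (fun s g => (Φ.hom b).2 s g)
    have h1 : b = b₀ := huniq b (fun g => rfl)
    have h2 : b' = b₀ := huniq b' (fun g => by rw [hbb']; rfl)
    rw [h1, h2]
  have hsurj : Function.Surjective Φ.hom := by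
    intro f
    obtain ⟨b₀, hb₀, -⟩ := hπ f.1 (fun s g => f.2 s g)
    refine ⟨b₀, ?_⟩
    apply Subtype.ext
    funext g
    exact hb₀ g
  have : Mono Φ := (Rep.mono_iff_injective Φ).mpr hinj
  have : Epi Φ := (Rep.epi_iff_surjective Φ).mpr hsurj
  have : IsIso Φ := isIso_of_mono_of_epi Φ
  have : IsIso (groupCohomology.map (MonoidHom.id G) Φ n) :=
    (inferInstance : IsIso ((groupCohomology.functor k G n).map Φ))
  have hcomp : groupCohomology.map φ π n =
      groupCohomology.map (MonoidHom.id G) Φ n ≫ H173.shapiroHom φ A n := by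
    have h1 := groupCohomology.map_comp (MonoidHom.id G) φ Φ (H173.ev1Hom φ A) n
    rw [← h1]
    apply groupCohomology.map_congr rfl
    ext b
    change π.hom b = π.hom (B.ρ 1 b)
    rw [map_one]
    rfl
  rw [hcomp]
  have hb1 : Function.Bijective (groupCohomology.map (MonoidHom.id G) Φ n).hom :=
    ConcreteCategory.bijective_of_isIso _
  have hb2 := H173.shapiroHom_bijective hφ n A
  have : ((groupCohomology.map (MonoidHom.id G) Φ n ≫ H173.shapiroHom φ A n).hom : _ → _) =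
      (H173.shapiroHom φ A n).hom ∘ (groupCohomology.map (MonoidHom.id G) Φ n).hom := by
    funext x; rfl
  rw [this]
  exact hb2.comp hb1

end Recog

/-! ## 2. The diagonal action, pointwise -/

section Gen

variable {k : Type} [CommRing k] {Γ Q : Type} [Group Γ] [Group Q]

lemma dAct_apply (φ : Γ →* Q) (A : Rep.{0} k Γ) (g : Γ) (b : Q →₀ A) (y : Q) :
    dAct φ A g b y = A.ρ g (b ((φ g)⁻¹ * y)) := by
  induction b using Finsupp.induction_linear with
  | zero => simp
  | add f f' hf hf' =>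
    rw [map_add, Finsupp.add_apply, hf, hf', Finsupp.add_apply, map_add]
  | single x a =>
    rw [dAct_single]
    by_cases hxy : φ g * x = y
    · have hx : x = (φ g)⁻¹ * y := by rw [← hxy, inv_mul_cancel_left]
      rw [← hxy, Finsupp.single_eq_same, inv_mul_cancel_left, Finsupp.single_eq_same]
    · have hx : x ≠ (φ g)⁻¹ * y := fun hx => hxy (by rw [hx, mul_inv_cancel_left])
      rw [Finsupp.single_eq_of_ne' hxy, Finsupp.single_eq_of_ne' hx, map_zero]

lemma dInd_ρ_apply (φ : Γ →* Q) (A : Rep.{0} k Γ) (g : Γ) (b : Q →₀ A) (y : Q) :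
    (show Q →₀ A from (dInd φ A).ρ g b) y = A.ρ g (b ((φ g)⁻¹ * y)) :=
  dAct_apply φ A g b y

/-- The coefficient at `1 ∈ Q`, equivariant for a subgroup acting trivially on `Q`. -/
def coeffOne (φ : Γ →* Q) (A : Rep.{0} k Γ) (H : Subgroup Γ) (hH : ∀ g ∈ H, φ g = 1) :
    Rep.res H.subtype (dInd φ A) ⟶ Rep.res H.subtype A :=
  Rep.ofHom ⟨(Finsupp.lapply (1 : Q) : (Q →₀ A) →ₗ[k] A), fun s => by
    refine LinearMap.ext fun b => ?_
    show (dAct φ A (s : Γ) (show Q →₀ A from b)) 1 = A.ρ (s : Γ) ((show Q →₀ A from b) 1)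
    rw [dAct_apply, hH s s.2, inv_one, one_mul]⟩

@[simp] lemma coeffOne_apply (φ : Γ →* Q) (A : Rep.{0} k Γ) (H : Subgroup Γ)
    (hH : ∀ g ∈ H, φ g = 1) (b : Q →₀ A) :
    (coeffOne φ A H hH).hom b = b 1 := rfl

lemma rho_mul_apply (A : Rep.{0} k Γ) (g g' : Γ) (a : A.V) :
    A.ρ (g * g') a = A.ρ g (A.ρ g' a) := by
  rw [map_mul]; rfl

lemma rho_inv_apply (A : Rep.{0} k Γ) (g : Γ) (a : A.V) :
    A.ρ g⁻¹ (A.ρ g a) = a := by
  rw [← rho_mul_apply, inv_mul_cancel, map_one]; rfl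

lemma rho_injective (A : Rep.{0} k Γ) (g : Γ) : Function.Injective (A.ρ g) := by
  intro a a' h
  have := congrArg (A.ρ g⁻¹) h
  rwa [rho_inv_apply, rho_inv_apply] at this

/-- Recognition hypothesis for the coefficient at `1`. -/
theorem coeffOne_recog [Finite Q] (φ : Γ →* Q) (hφ : Function.Surjective φ) (A : Rep.{0} k Γ)
    (H : Subgroup Γ) (hH : ∀ g, g ∈ H ↔ φ g = 1)
    (f : Γ → A.V) (hf : ∀ (s : H) (g : Γ), f ((s : Γ) * g) = A.ρ (s : Γ) (f g)) :
    ∃! b : Q →₀ A.V, ∀ g : Γ, (show Q →₀ A.V from (dInd φ A).ρ g b) 1 = f g := by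
  classical
  let σ : Q → Γ := Function.surjInv hφ
  have hσ : ∀ x, φ (σ x) = x := Function.surjInv_eq hφ
  refine ⟨Finsupp.equivFunOnFinite.symm (fun x : Q => A.ρ (σ x⁻¹)⁻¹ (f (σ x⁻¹))), ?_, ?_⟩
  · intro g
    show (show Q →₀ A.V from (dInd φ A).ρ g _) 1 = f g
    rw [dInd_ρ_apply, mul_one]
    show A.ρ g (A.ρ (σ (φ g)⁻¹⁻¹)⁻¹ (f (σ (φ g)⁻¹⁻¹))) = f g
    rw [inv_inv]
    have hs : σ (φ g) * g⁻¹ ∈ H := by
      rw [hH, map_mul, hσ, map_inv, mul_inv_cancel]
    have h1 := hf ⟨_, hs⟩ g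
    rw [show ((⟨σ (φ g) * g⁻¹, hs⟩ : H) : Γ) * g = σ (φ g) from inv_mul_cancel_right _ _] at h1
    rw [h1, ← rho_mul_apply, ← rho_mul_apply]
    have h2 : g * (σ (φ g))⁻¹ * (σ (φ g) * g⁻¹) = 1 := by group
    show A.ρ (g * (σ (φ g))⁻¹ * (σ (φ g) * g⁻¹)) (f g) = f g
    rw [h2, map_one]; rfl
  · intro b' hb'
    ext y
    obtain ⟨g, hg⟩ := hφ y⁻¹
    have h1 := hb' g
    rw [dInd_ρ_apply, mul_one, hg, inv_inv] at h1
    show b' y = A.ρ (σ y⁻¹)⁻¹ (f (σ y⁻¹))
    have hs : σ y⁻¹ * g⁻¹ ∈ H := by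
      rw [hH, map_mul, hσ, map_inv, hg, mul_inv_cancel]
    have h2 := hf ⟨_, hs⟩ g
    rw [show ((⟨σ y⁻¹ * g⁻¹, hs⟩ : H) : Γ) * g = σ y⁻¹ from inv_mul_cancel_right _ _] at h2
    rw [h2, ← h1, ← rho_mul_apply, ← rho_mul_apply]
    have h3 : (σ y⁻¹)⁻¹ * (σ y⁻¹ * g⁻¹) * g = 1 := by group
    show b' y = A.ρ ((σ y⁻¹)⁻¹ * (σ y⁻¹ * g⁻¹) * g) (b' y)
    rw [h3, map_one]; rfl

/-- **Shapiro for `dInd`** (`α`): `Hⁿ(Γ, (Q →₀ A)) → Hⁿ(H, A)`, restriction to `H = ker φ` and
coefficient at `1`, is bijective. -/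
theorem coeffOne_bijective [Finite Q] (φ : Γ →* Q) (hφ : Function.Surjective φ)
    (A : Rep.{0} k Γ) (H : Subgroup Γ) (hH : ∀ g, g ∈ H ↔ φ g = 1) (n : ℕ) :
    Function.Bijective
      (groupCohomology.map H.subtype (coeffOne φ A H (fun g hg => (hH g).1 hg)) n).hom :=
  recog_bijective H.subtype H.subtype_injective (Rep.res H.subtype A) (dInd φ A)
    (coeffOne φ A H (fun g hg => (hH g).1 hg))
    (fun f hf => coeffOne_recog φ hφ A H hH f hf) n

end Gen

/-! ## 3. Evaluation at `1` on `(Q →₀ Coind A)` -/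

section Beta

variable {k : Type} [CommRing k] {Γ Q D : Type} [Group Γ] [Group Q] [Group D]

/-- Evaluation at `1`, coefficientwise: `Res_δ (Q →₀ Coind_δ A) ⟶ (Q →₀ A)`. -/
def evOne (φ : Γ →* Q) (δ : D →* Γ) (A : Rep.{0} k D) :
    Rep.res δ (dInd φ (Rep.coind δ A)) ⟶ dInd (φ.comp δ) A :=
  dIndTr φ δ (φ.comp δ) (fun _ => rfl) (H173.ev1Hom δ A)

lemma evOne_apply (φ : Γ →* Q) (δ : D →* Γ) (A : Rep.{0} k D)
    (b : Q →₀ (Rep.coind δ A).V) (x : Q) :
    (show Q →₀ A.V from (evOne φ δ A).hom b) x = (b x).1 1 := rfl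

lemma coind_ρ_apply (δ : D →* Γ) (A : Rep.{0} k D) (g g' : Γ) (f : (Rep.coind δ A).V) :
    ((Rep.coind δ A).ρ g f).1 g' = f.1 (g' * g) := rfl

lemma evOne_rho_apply (φ : Γ →* Q) (δ : D →* Γ) (A : Rep.{0} k D) (g : Γ)
    (b : Q →₀ (Rep.coind δ A).V) (x : Q) :
    (show Q →₀ A.V from (evOne φ δ A).hom ((dInd φ (Rep.coind δ A)).ρ g b)) x =
      (b ((φ g)⁻¹ * x)).1 g := by
  have h1 : (show Q →₀ A.V from (evOne φ δ A).hom ((dInd φ (Rep.coind δ A)).ρ g b)) x =
      ((show Q →₀ (Rep.coind δ A).V from (dInd φ (Rep.coind δ A)).ρ g b) x).1 1 := rfl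
  have h2 := dInd_ρ_apply φ (Rep.coind δ A) g b x
  have h3 : ((show Q →₀ (Rep.coind δ A).V from (dInd φ (Rep.coind δ A)).ρ g b) x).1 1 =
      ((Rep.coind δ A).ρ g (b ((φ g)⁻¹ * x))).1 1 := congrArg (fun f => f.1 1) h2
  have h4 : ((Rep.coind δ A).ρ g (b ((φ g)⁻¹ * x))).1 1 = (b ((φ g)⁻¹ * x)).1 (1 * g) := rfl
  rw [h1, h3, h4, one_mul]

/-- Recognition hypothesis for the evaluation at `1`. -/
theorem evOne_recog [Finite Q] (φ : Γ →* Q) (δ : D →* Γ) (A : Rep.{0} k D)
    (F : Γ → (Q →₀ A.V))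
    (hF : ∀ (d : D) (g : Γ), F (δ d * g) = (dInd (φ.comp δ) A).ρ d (F g)) :
    ∃! b : Q →₀ (Rep.coind δ A).V,
      ∀ g : Γ, (evOne φ δ A).hom ((dInd φ (Rep.coind δ A)).ρ g b) = F g := by
  classical
  have hmem : ∀ y : Q, (fun g : Γ => F g (φ g * y)) ∈ Representation.coindV δ A.ρ := by
    intro y d g
    show F (δ d * g) (φ (δ d * g) * y) = A.ρ d (F g (φ g * y))
    have h1 : F (δ d * g) (φ (δ d * g) * y) =
        (show Q →₀ A.V from (dInd (φ.comp δ) A).ρ d (F g)) (φ (δ d * g) * y) :=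
      congrArg (fun c : Q →₀ A.V => c (φ (δ d * g) * y)) (hF d g)
    have h2 := dInd_ρ_apply (φ.comp δ) A d (F g) (φ (δ d * g) * y)
    have h3 : ((φ.comp δ) d)⁻¹ * (φ (δ d * g) * y) = φ g * y := by
      rw [map_mul, MonoidHom.comp_apply, mul_assoc, inv_mul_cancel_left]
    rw [h3] at h2
    exact h1.trans h2
  refine ⟨Finsupp.equivFunOnFinite.symm (fun y : Q => (⟨_, hmem y⟩ : (Rep.coind δ A).V)), ?_, ?_⟩
  · intro g
    refine Finsupp.ext fun x => ?_
    refine (evOne_rho_apply φ δ A g _ x).trans ?_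
    show F g (φ g * ((φ g)⁻¹ * x)) = F g x
    rw [mul_inv_cancel_left]
  · intro b' hb'
    refine Finsupp.ext fun y => Subtype.ext (funext fun g => ?_)
    show (b' y).1 g = F g (φ g * y)
    have h1 : (show Q →₀ A.V from (evOne φ δ A).hom ((dInd φ (Rep.coind δ A)).ρ g b'))
        (φ g * y) = F g (φ g * y) := congrArg (fun c : Q →₀ A.V => c (φ g * y)) (hb' g)
    have h2 := evOne_rho_apply φ δ A g b' (φ g * y)
    rw [inv_mul_cancel_left] at h2
    exact h2.symm.trans h1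

/-- **Shapiro for `(Q →₀ Coind A)`** (`β`): restriction along `δ` and evaluation at `1` is
bijective `Hⁿ(Γ, (Q →₀ Coind_δ A)) → Hⁿ(D, (Q →₀ A))`. -/
theorem evOne_bijective [Finite Q] (φ : Γ →* Q) (δ : D →* Γ) (hδ : Function.Injective δ)
    (A : Rep.{0} k D) (n : ℕ) :
    Function.Bijective (groupCohomology.map δ (evOne φ δ A) n).hom :=
  recog_bijective δ hδ (dInd (φ.comp δ) A) (dInd φ (Rep.coind δ A)) (evOne φ δ A)
    (fun F hF => evOne_recog φ δ A F hF) n

end Beta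

/-! ## 4. The two Shapiro maps in the tower -/

section Tower

attribute [local instance 10000] Rep.hV2

variable {S : Finset Nat.Primes} {K₀ L : Level S} (h : K₀ ≤ L)

/-- `α_X : Hⁿ(Gal(L/ℚ), Ind X) → Hⁿ(H, X)`, `H = ker (proj h)`. -/
def alpha (H : Subgroup L.Gal) (hH : ∀ g, g ∈ H ↔ Level.proj h g = 1) (X : Rep.{0} ℤ L.Gal)
    (n : ℕ) : groupCohomology (indF h X) n →ₗ[ℤ] Hn H X n :=
  (groupCohomology.map H.subtype
    (coeffOne (Level.proj h) X H (fun g hg => (hH g).1 hg)) n).hom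

lemma alpha_bijective (H : Subgroup L.Gal) (hH : ∀ g, g ∈ H ↔ Level.proj h g = 1)
    (X : Rep.{0} ℤ L.Gal) (n : ℕ) : Function.Bijective (alpha h H hH X n) :=
  coeffOne_bijective (Level.proj h) (H79.proj_surjective h) X H hH n

/-- `β_q : Hⁿ(Gal(L/ℚ), Ind J_q) → Hⁿ(Dec_q(L), semiLoc)`. -/
def beta (q : Nat.Primes) (n : ℕ) :
    groupCohomology (indF h (L.J q)) n →ₗ[ℤ] groupCohomology (semiLoc h q) n :=
  (groupCohomology.map (L.decHom q)
    (evOne (Level.proj h) (L.decHom q) (L.locUnits q)) n).hom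

lemma beta_bijective (q : Nat.Primes) (n : ℕ) : Function.Bijective (beta h q n) :=
  evOne_bijective (Level.proj h) (L.decHom q) (L.decHom_injective q) (L.locUnits q) n

/-! ### Naturality -/

/-- `α` is natural in the coefficients. -/
lemma alpha_coeff (H : Subgroup L.Gal) (hH : ∀ g, g ∈ H ↔ Level.proj h g = 1)
    {X Y : Rep.{0} ℤ L.Gal} (f : X ⟶ Y) (n : ℕ) (z : groupCohomology (indF h X) n) :
    alpha h H hH Y n ((T.coeffMap (indFMap h f) n).hom z) = coe H f n (alpha h H hH X n z) :=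
  H998.map_map_eq (A := indF h X) (B := indF h Y) (B' := T.resSub X H) (C := T.resSub Y H)
    (MonoidHom.id L.Gal) H.subtype H.subtype (MonoidHom.id H)
    (indFMap h f) (coeffOne (Level.proj h) Y H (fun g hg => (hH g).1 hg))
    (coeffOne (Level.proj h) X H (fun g hg => (hH g).1 hg))
    ((Rep.resFunctor H.subtype).map f) (fun _ => rfl) (fun _ => rfl) n z

/-- `α` is natural for inflation. -/
lemma alpha_infl {L' : Level S} (h' : L ≤ L') (H : Subgroup L.Gal)
    (hH : ∀ g, g ∈ H ↔ Level.proj h g = 1)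
    (hH' : ∀ g, g ∈ up h' H ↔ Level.proj (h.trans h') g = 1)
    {X : Rep.{0} ℤ L.Gal} {X' : Rep.{0} ℤ L'.Gal} (t : Rep.res (Level.proj h') X ⟶ X') (n : ℕ)
    (z : groupCohomology (indF h X) n) :
    infUp h' H t n (alpha h H hH X n z) =
      alpha (h.trans h') (up h' H) hH' X' n
        ((groupCohomology.map (Level.proj h') (indFTr h h' t) n).hom z) :=
  H998.map_map_eq (A := indF h X) (B := T.resSub X H) (B' := indF (h.trans h') X')
    (C := T.resSub X' (up h' H))
    H.subtype (projSub (Level.proj h') H) (Level.proj h') (up h' H).subtype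
    (coeffOne (Level.proj h) X H (fun g hg => (hH g).1 hg)) (semiSub (Level.proj h') H t)
    (indFTr h h' t)
    (coeffOne (Level.proj (h.trans h')) X' (up h' H) (fun g hg => (hH' g).1 hg))
    (fun _ => rfl) (fun _ => rfl) n z

/-- The inflation `Hⁿ(Gal(L/ℚ), Ind J_q(L)) → Hⁿ(Gal(L'/ℚ), Ind J_q(L'))`. -/
def inflJ {L' : Level S} (h' : L ≤ L') (q : Nat.Primes) (n : ℕ) :
    groupCohomology (indF h (L.J q)) n →ₗ[ℤ] groupCohomology (indF (h.trans h') (L'.J q)) n :=
  (groupCohomology.map (Level.proj h') (indFTr h h' (Level.trJ h' q)) n).hom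

/-- `β` is natural for inflation. -/
lemma beta_infl {L' : Level S} (h' : L ≤ L') (q : Nat.Primes)
    (z : groupCohomology (indF h (L.J q)) 2) :
    beta (h.trans h') q 2 (inflJ h h' q 2 z) = inflLoc h q h' (beta h q 2 z) :=
  H998.map_map_eq (A := indF h (L.J q)) (B := indF (h.trans h') (L'.J q))
    (B' := semiLoc h q) (C := semiLoc (h.trans h') q)
    (Level.proj h') (L'.decHom q) (L.decHom q) (Level.projDec h' q)
    (indFTr h h' (Level.trJ h' q))
    (evOne (Level.proj (h.trans h')) (L'.decHom q) (L'.locUnits q))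
    (evOne (Level.proj h) (L.decHom q) (L.locUnits q)) (semiLocTr h q h')
    (fun d => Level.proj_decHom h' q d)
    (fun a => by
      refine Finsupp.ext fun x => ?_
      show Level.inclLoc h' q (L.Jeval q ((show K₀.Gal →₀ (L.J q).V from a) x)
          (Level.proj h' 1)) =
        Level.inclLoc h' q (L.Jeval q ((show K₀.Gal →₀ (L.J q).V from a) x) 1)
      rw [map_one]) 2 z

/-- The localisation `locH2` is `β` after the diagonal. -/
lemma locH2_eq_beta (q : Nat.Primes) (e : groupCohomology (indF h (sUnits L)) 2) :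
    locH2 h q e = beta h q 2 ((T.coeffMap (indFMap h (sIncl L ≫ L.diag q)) 2).hom e) :=
  (H998.map_comp_apply (X := indF h (sUnits L)) (X' := indF h (L.J q)) (X'' := semiLoc h q)
    (MonoidHom.id L.Gal) (L.decHom q) (L.decHom q)
    (indFMap h (sIncl L ≫ L.diag q)) (evOne (Level.proj h) (L.decHom q) (L.locUnits q))
    (locF h q) (fun _ => rfl)
    (fun a => by
      refine Finsupp.ext fun x => ?_
      show L.embFun q ((sIncl L).hom ((show K₀.Gal →₀ (sUnits L).V from a) x)) =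
        L.embFun q (L.units.ρ 1 ((sIncl L).hom ((show K₀.Gal →₀ (sUnits L).V from a) x)))
      rw [map_one]; rfl) 2 e).symm

/-! ### The product `J = ∏ J_q` -/

/-- The projection `J(F) ⟶ J_q(F)`. -/
def projJ (L : Level S) (q : S) : Jtot L ⟶ L.J q.1 := piProj (fun q : S => L.J q.1) q

lemma projJ_apply (L : Level S) (q : S) (x : (Jtot L).V) : (projJ L q).hom x = piTo x q := rfl

lemma coe_id (H : Subgroup L.Gal) (A : Rep.{0} ℤ L.Gal) (n : ℕ) (x : Hn H A n) :
    coe H (𝟙 A) n x = x :=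
  H998.map_id_apply (X := T.resSub A H) (MonoidHom.id H)
    ((Rep.resFunctor H.subtype).map (𝟙 A)) (fun _ => rfl) (fun _ => rfl) n x

lemma inclJ_projJ_same (q : S) : inclJ L q ≫ projJ L q = 𝟙 (L.J q.1) :=
  H998.repHom_ext fun x => piTo_inclJ_same L q x

lemma inclJ_projJ_of_ne {q q' : S} (hq : q ≠ q') : inclJ L q' ≫ projJ L q = 0 :=
  H998.repHom_ext fun x => piTo_inclJ_of_ne L hq x

lemma diagTot_projJ (q : S) : diagTot L ≫ projJ L q = sIncl L ≫ L.diag q.1 :=
  H998.repHom_ext fun _ => rfl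

lemma coe_projJ_sum (H : Subgroup L.Gal) (n : ℕ) (x : ∀ q : S, Hn H (L.J q.1) n) (q : S) :
    coe H (projJ L q) n (∑ q' : S, coe H (inclJ L q') n (x q')) = x q := by
  classical
  rw [map_sum, Finset.sum_eq_single q]
  · rw [← H79.coe_comp, inclJ_projJ_same, coe_id]
  · intro q' _ hq'
    rw [← H79.coe_comp, inclJ_projJ_of_ne (Ne.symm hq'), H79.coe_zero]
  · intro hq
    exact absurd (Finset.mem_univ q) hq

end Tower

/-! ## 5. The leaf -/

/-- **GO4-SHAP**: the tower form of GO4 implies the finite-level induced form. -/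
theorem shapLeaf (p : ℕ) (S : Finset Nat.Primes) : ShapLeaf p S := by
  intro hCT K₀ L h t t' ht ht'
  classical
  let H : Subgroup L.Gal := Level.relGal h
  have hH : ∀ g, g ∈ H ↔ Level.proj h g = 1 := fun g => MonoidHom.mem_ker
  choose z hz using fun q : S => (beta_bijective h q.1 2).2 (t q)
  choose z' hz' using fun q : S => (beta_bijective h q.1 2).2 (t' q)
  have hpz : ∀ q : S, p • z q = 0 := fun q =>
    (beta_bijective h q.1 2).1 (by rw [map_nsmul, hz, ht, map_zero])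
  have hpz' : ∀ q : S, p • z' q = 0 := fun q =>
    (beta_bijective h q.1 2).1 (by rw [map_nsmul, hz', ht', map_zero])
  let xq : ∀ q : S, Hn H (L.J q.1) 2 := fun q => alpha h H hH (L.J q.1) 2 (z q)
  let xq' : ∀ q : S, Hn H (L.J q.1) 2 := fun q => alpha h H hH (L.J q.1) 2 (z' q)
  let x : Hn H (Jtot L) 2 := ∑ q : S, coe H (inclJ L q) 2 (xq q)
  let x' : Hn H (Jtot L) 2 := ∑ q : S, coe H (inclJ L q) 2 (xq' q)
  have hx : p • x = 0 := by
    rw [Finset.smul_sum]
    refine Finset.sum_eq_zero fun q _ => ?_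
    rw [← map_nsmul, ← map_nsmul, hpz, map_zero, map_zero]
  have hx' : p • x' = 0 := by
    rw [Finset.smul_sum]
    refine Finset.sum_eq_zero fun q _ => ?_
    rw [← map_nsmul, ← map_nsmul, hpz', map_zero, map_zero]
  obtain ⟨a, b, hab, L', h', y, hy, hyx⟩ := hCT L H x x' hx hx'
  have hH' : ∀ g, g ∈ up h' H ↔ Level.proj (h.trans h') g = 1 := fun g => by
    show Level.proj h' g ∈ H ↔ _
    rw [hH, proj_proj]
  obtain ⟨e, he⟩ := (alpha_bijective (h.trans h') (up h' H) hH' (sUnits L') 2).2 y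
  refine ⟨a, b, hab, L', h', e, ?_, fun q => ?_⟩
  · apply (alpha_bijective (h.trans h') (up h' H) hH' (sUnits L') 2).1
    rw [map_nsmul, he, hy, map_zero]
  · have hw : (T.coeffMap (indFMap (h.trans h') (sIncl L' ≫ L'.diag q.1)) 2).hom e =
        inflJ h h' q.1 2 (a • z q + b • z' q) := by
      apply (alpha_bijective (h.trans h') (up h' H) hH' (L'.J q.1) 2).1
      have h0 : alpha (h.trans h') (up h' H) hH' (L'.J q.1) 2 (inflJ h h' q.1 2 (a • z q + b • z' q)) =
          infUp h' H (Level.trJ h' q.1) 2 (alpha h H hH (L.J q.1) 2 (a • z q + b • z' q)) :=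
        (alpha_infl h h' H hH hH' (Level.trJ h' q.1) 2 _).symm
      rw [alpha_coeff, he, h0, ← diagTot_projJ, H79.coe_comp, hyx]
      have h2 := H79.infSub_coe (Level.proj h') H (projJ L q) (projJ L' q) (trJtot h')
        (Level.trJ h' q.1) (fun _ => rfl) 2 (a • x + b • x')
      rw [← h2]
      congr 1
      rw [map_add, map_nsmul, map_nsmul, coe_projJ_sum, coe_projJ_sum, map_add, map_nsmul,
        map_nsmul]
    rw [locH2_eq_beta, hw, beta_infl, map_add, map_nsmul, map_nsmul, hz, hz']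

end

end Fermat.Agent.S55.Inv.GO4.H174
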